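import Fermat.Agent.Lib.S23.Basic
import Fermat.Prelude.Thm_CongruenceSubgroup_one_mem_strictPeriods_Gamma0

set_option autoImplicit false

namespace Fermat.Agent.LibS23

open UpperHalfPlane ModularForm CongruenceSubgroup MatrixGroups Filter EisensteinSeries
open scoped Manifold Topology

theorem QExp.of_modularFormClass {F : Type*} [FunLike F ℍ ℂ] {Γ : Subgroup (GL (Fin 2) ℝ)}
    {k : ℤ} [ModularFormClass F Γ k] (f : F) (hΓ : (1 : ℝ) ∈ Γ.strictPeriods) : QExp ⇑f := by
  have : Fact (IsCusp OnePoint.infty Γ) := ⟨Γ.isCusp_of_mem_strictPeriods one_pos hΓ⟩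
  exact ⟨SlashInvariantFormClass.periodic_comp_ofComplex f hΓ, ModularFormClass.holo f,
    ModularFormClass.bdd_at_infty f⟩

theorem QExp.of_levelOne {k : ℤ} (f : ModularForm 𝒮ℒ k) : QExp ⇑f :=
  QExp.of_modularFormClass f one_mem_strictPeriods_SL

theorem QExp.of_gamma0 {N : ℕ} {k : ℤ} (f : ModularForm (Gamma0 N) k) : QExp ⇑f :=
  QExp.of_modularFormClass f (CongruenceSubgroup.one_mem_strictPeriods_Gamma0 N)

theorem QExp.of_gamma0_cusp {N : ℕ} {k : ℤ} (f : CuspForm (Gamma0 N) k) : QExp ⇑f :=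
  QExp.of_modularFormClass f (CongruenceSubgroup.one_mem_strictPeriods_Gamma0 N)

theorem qx_const (c : ℂ) : qx (fun _ : ℍ => c) = PowerSeries.C c := by
  have : (fun _ : ℍ => c) = c • (1 : ℍ → ℂ) := by ext z; simp
  rw [this, qx_smul c QExp.one, qx_one]
  ext n
  simp [PowerSeries.coeff_C]

/-- The `q`-expansion of `E_k` is fixed by any ring endomorphism of `ℂ`. -/
theorem map_qx_E (σ : ℂ →+* ℂ) {k : ℕ} (hk : 3 ≤ k) (hk2 : Even k) :
    (qx (E hk)).map σ = qx (E hk) := by
  ext m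
  rw [PowerSeries.coeff_map, E_qExpansion_coeff hk hk2 m]
  split_ifs with h
  · simp
  · have h1 : (-(2 * (k : ℂ) / (bernoulli k : ℂ)) * ((ArithmeticFunction.sigma (k - 1) m : ℕ) : ℂ))
        = ((-(2 * (k : ℚ) / bernoulli k) * (ArithmeticFunction.sigma (k - 1) m : ℕ) : ℚ) : ℂ) := by
      push_cast; ring
    rw [h1, map_ratCast]

/-- The `q`-expansion of `Δ` is fixed by any ring endomorphism of `ℂ`. -/
theorem map_qx_discriminant (σ : ℂ →+* ℂ) :
    (qx ModularForm.discriminant).map σ = qx ModularForm.discriminant := by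
  have hE4 : QExp ⇑(E₄) := QExp.of_levelOne _
  have hE6 : QExp ⇑(E₆) := QExp.of_levelOne _
  have hΔ : ModularForm.discriminant
      = (1 / 1728 : ℂ) • ((⇑E₄) ^ 3 - (⇑E₆) ^ 2) := by
    ext z
    rw [discriminant_eq_E₄_cube_sub_E₆_sq z]
    simp
    ring
  have hq : qx ModularForm.discriminant
      = (1 / 1728 : ℂ) • (qx ⇑E₄ ^ 3 - qx ⇑E₆ ^ 2) := by
    rw [hΔ, qx_smul _ ((hE4.pow 3).sub (hE6.pow 2)), qx_sub (hE4.pow 3) (hE6.pow 2),
      qx_pow hE4, qx_pow hE6]
  have h4 : (qx ⇑E₄).map σ = qx ⇑E₄ := map_qx_E σ (by norm_num) ⟨2, rfl⟩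
  have h6 : (qx ⇑E₆).map σ = qx ⇑E₆ := map_qx_E σ (by norm_num) ⟨3, rfl⟩
  rw [hq]
  have hsm : ∀ p : PowerSeries ℂ, ((1 / 1728 : ℂ) • p).map σ = (1 / 1728 : ℂ) • p.map σ := by
    intro p
    ext n
    simp only [PowerSeries.coeff_map, PowerSeries.coeff_smul, smul_eq_mul, map_mul]
    congr 1
    have : (1 / 1728 : ℂ) = ((1 / 1728 : ℚ) : ℂ) := by push_cast; ring
    rw [this, map_ratCast]
  rw [hsm, map_sub, map_pow, map_pow, h4, h6]

end Fermat.Agent.LibS23

namespace Fermat.Agent.LibS23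

open UpperHalfPlane ModularForm CongruenceSubgroup MatrixGroups Filter EisensteinSeries
open scoped Manifold Topology

/-- auxiliary: the statement for natural weights, by strong induction -/
theorem levelOne_conj_nat (σ : ℂ →+* ℂ) :
    ∀ (n : ℕ) (f : ModularForm 𝒮ℒ (n : ℤ)), ∃ g : ModularForm 𝒮ℒ (n : ℤ), qx ⇑g = (qx ⇑f).map σ := by
  intro n
  induction n using Nat.strong_induction_on with
  | _ n ih =>
  intro f
  rcases Nat.even_or_odd n with hev | hodd
  swap
  · -- odd weight: zero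
    have hf : f = 0 := ModularForm.levelOne_odd_weight_eq_zero (by exact_mod_cast hodd) f
    refine ⟨0, ?_⟩
    rw [hf]
    simp [qx_zero]
  rcases Nat.lt_or_ge n 3 with hlt | hge
  · -- n = 0 or n = 2
    have hn : n = 0 ∨ n = 2 := by
      rcases hev with ⟨m, hm⟩
      omega
    rcases hn with rfl | rfl
    · obtain ⟨c, hc⟩ := ModularFormClass.levelOne_weight_zero_const f
      refine ⟨ModularForm.const (σ c), ?_⟩
      have h1 : (⇑(ModularForm.const (Γ := 𝒮ℒ) (σ c)) : ℍ → ℂ) = fun _ => σ c := by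
        ext z; simp [ModularForm.const_apply]
      have h2 : (⇑f : ℍ → ℂ) = fun _ => c := by
        rw [hc]; rfl
      rw [h1, h2, qx_const, qx_const]
      simp
    · have hf : f = 0 :=
        rank_zero_iff_forall_zero.mp ModularForm.levelOne_weight_two_rank_zero f
      refine ⟨0, ?_⟩
      rw [hf]
      simp [qx_zero]
  · -- n ≥ 3 even
    set c : ℂ := (qx ⇑f).coeff 0 with hc
    set f' : ModularForm 𝒮ℒ (n : ℤ) := f - c • E hge with hf'
    have hEQ : QExp ⇑(E hge) := QExp.of_levelOne _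
    have hfQ : QExp ⇑f := QExp.of_levelOne _
    have hqf' : qx ⇑f' = qx ⇑f - c • qx ⇑(E hge) := by
      have : (⇑f' : ℍ → ℂ) = ⇑f - c • ⇑(E hge) := by
        rw [hf']; rfl
      rw [this, qx_sub hfQ (hEQ.smul c), qx_smul c hEQ]
    have h0 : (qExpansion 1 ⇑f').coeff 0 = 0 := by
      change (qx ⇑f').coeff 0 = 0
      rw [hqf', map_sub, PowerSeries.coeff_smul]
      have := E_qExpansion_coeff_zero hge hev
      change (qx ⇑(E hge)).coeff 0 = 1 at this
      rw [this]
      simp [hc]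
    have hdiv := ModularForm.qExpansion_eq_qExpansion_discriminant_mul f' h0
    set f'' : ModularForm 𝒮ℒ ((n : ℤ) - 12) := CuspForm.discriminantEquiv (toCuspForm f' h0)
      with hf''
    -- conjugate of f''
    have hg'' : ∃ g'' : ModularForm 𝒮ℒ ((n : ℤ) - 12), qx ⇑g'' = (qx ⇑f'').map σ := by
      rcases Nat.lt_or_ge n 12 with h12 | h12
      · have hz : f'' = 0 :=
          rank_zero_iff_forall_zero.mp (ModularForm.levelOne_neg_weight_rank_zero (by omega)) f''
        refine ⟨0, ?_⟩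
        rw [hz]
        simp [qx_zero]
      · have hcast : ((n : ℤ) - 12) = ((n - 12 : ℕ) : ℤ) := by omega
        obtain ⟨g0, hg0⟩ := ih (n - 12) (by omega) (ModularForm.mcast hcast f'')
        refine ⟨ModularForm.mcast hcast.symm g0, ?_⟩
        have e1 : (⇑(ModularForm.mcast (Γ' := 𝒮ℒ) hcast.symm g0) : ℍ → ℂ) = ⇑g0 := rfl
        have e2 : (⇑(ModularForm.mcast (Γ' := 𝒮ℒ) hcast f'') : ℍ → ℂ) = ⇑f'' := rfl
        rw [e1, hg0, e2]
    obtain ⟨g'', hg''⟩ := hg''
    refine ⟨σ c • E hge + ((CuspForm.ofMulDiscriminant g'' : CuspForm 𝒮ℒ (n : ℤ)) :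
      ModularForm 𝒮ℒ (n : ℤ)), ?_⟩
    have hcoe : (⇑(σ c • E hge + ((CuspForm.ofMulDiscriminant g'' : CuspForm 𝒮ℒ (n : ℤ)) :
        ModularForm 𝒮ℒ (n : ℤ))) : ℍ → ℂ)
        = σ c • ⇑(E hge) + ModularForm.discriminant * ⇑g'' := by
      ext z
      rfl
    have hΔQ : QExp ModularForm.discriminant := by
      have := QExp.of_levelOne (CuspForm.discriminant : ModularForm 𝒮ℒ 12)
      exact this
    have hg''Q : QExp ⇑g'' := QExp.of_levelOne _
    have hf''Q : QExp ⇑f'' := QExp.of_levelOne _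
    rw [hcoe, qx_add (hEQ.smul _) (hΔQ.mul hg''Q), qx_smul _ hEQ, qx_mul hΔQ hg''Q, hg'']
    -- now the right hand side
    have hfdecomp : qx ⇑f = c • qx ⇑(E hge) + qx ModularForm.discriminant * qx ⇑f'' := by
      have : qx ⇑f' = qx ModularForm.discriminant * qx ⇑f'' := hdiv
      rw [← this, hqf']
      ring
    rw [hfdecomp, map_add, map_mul, map_qx_discriminant σ]
    congr 1
    ext m
    simp only [PowerSeries.coeff_map, PowerSeries.coeff_smul, smul_eq_mul, map_mul]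
    congr 1
    have := congrArg (fun p => PowerSeries.coeff m p) (map_qx_E σ hge hev)
    simpa [PowerSeries.coeff_map] using this.symm

/-- **Level-one forms are stable under conjugation of `q`-expansions.** -/
theorem levelOne_conj (σ : ℂ →+* ℂ) (k : ℤ) (f : ModularForm 𝒮ℒ k) :
    ∃ g : ModularForm 𝒮ℒ k, qx ⇑g = (qx ⇑f).map σ := by
  rcases lt_or_ge k 0 with hk | hk
  · have hz : f = 0 :=
      rank_zero_iff_forall_zero.mp (ModularForm.levelOne_neg_weight_rank_zero hk) f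
    refine ⟨0, ?_⟩
    rw [hz]
    simp [qx_zero]
  · lift k to ℕ using hk
    exact levelOne_conj_nat σ k f

end Fermat.Agent.LibS23
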