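import Fermat.Agent.Lib.S23.DeltaN

set_option autoImplicit false

namespace Fermat.Agent.LibS23

open UpperHalfPlane ModularForm CongruenceSubgroup MatrixGroups Filter Matrix.SpecialLinearGroup
open scoped Manifold Topology Real

/-- growth of `Δ`: `‖Δ w‖ · e^{2π Im w} → 1` as `Im w → ∞`. -/
theorem tendsto_norm_discriminant_mul_exp :
    Tendsto (fun w : ℍ => ‖ModularForm.discriminant w‖ * Real.exp (2 * π * w.im))
      atImInfty (𝓝 1) := by
  have h := tendsto_atImInfty_tprod_one_sub_eta_q_pow.norm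
  rw [norm_one] at h
  refine h.congr fun w => ?_
  rw [discriminant_eq_q_prod, norm_mul]
  have hq_norm : ‖Function.Periodic.qParam 1 (w : ℂ)‖ = Real.exp (-2 * π * w.im) := by
    simp [Function.Periodic.qParam, Complex.norm_exp]
  rw [hq_norm]
  have : Real.exp (-2 * π * w.im) * Real.exp (2 * π * w.im) = 1 := by
    rw [← Real.exp_add]; simp
  calc ‖∏' n, (1 - eta_q n (w : ℂ)) ^ 24‖
      = ‖∏' n, (1 - eta_q n (w : ℂ)) ^ 24‖ * (Real.exp (-2 * π * w.im) * Real.exp (2 * π * w.im)) := by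
        rw [this, mul_one]
    _ = _ := by ring

/-- The action of a positive upper triangular matrix. -/
theorem coe_upperTriangularGL_smul (a b d : ℝ) (ha : 0 < a) (hd : 0 < d) (z : ℍ) :
    ((upperTriangularGL a b d (mul_pos ha hd).ne' • z : ℍ) : ℂ) = (a * z + b) / d := by
  have hdet : 0 < ((upperTriangularGL a b d (mul_pos ha hd).ne').det : ℝ) := by
    rw [Matrix.GeneralLinearGroup.val_det_apply, val_upperTriangularGL, Matrix.det_fin_two_of]
    simpa using mul_pos ha hd
  rw [UpperHalfPlane.coe_smul_of_det_pos hdet]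
  simp [UpperHalfPlane.num, UpperHalfPlane.denom, val_upperTriangularGL]

theorem im_upperTriangularGL_smul (a b d : ℝ) (ha : 0 < a) (hd : 0 < d) (z : ℍ) :
    (upperTriangularGL a b d (mul_pos ha hd).ne' • z : ℍ).im = a / d * z.im := by
  have h := congrArg Complex.im (coe_upperTriangularGL_smul a b d ha hd z)
  rw [UpperHalfPlane.coe_im] at h
  rw [h]
  have : ((a : ℂ) * (z : ℂ) + b) / d = (((a * z.re + b) / d : ℝ) : ℂ)
      + ((a / d * z.im : ℝ) : ℂ) * Complex.I := by
    apply Complex.ext <;> simp <;> field_simp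
  rw [this]
  simp

theorem tendsto_upperTriangularGL_smul (a b d : ℝ) (ha : 0 < a) (hd : 0 < d) :
    Tendsto (fun z : ℍ => upperTriangularGL a b d (mul_pos ha hd).ne' • z) atImInfty atImInfty := by
  rw [atImInfty, tendsto_comap_iff]
  have : (UpperHalfPlane.im ∘ fun z : ℍ => upperTriangularGL a b d (mul_pos ha hd).ne' • z)
      = fun z : ℍ => a / d * z.im := by
    funext z
    exact im_upperTriangularGL_smul a b d ha hd z
  rw [this]
  exact Tendsto.const_mul_atTop (div_pos ha hd) tendsto_comap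

/-- slash of `Δ` by a positive upper triangular matrix -/
theorem discriminant_slash_upperTriangular (a b d : ℝ) (ha : 0 < a) (hd : 0 < d) (z : ℍ) :
    (ModularForm.discriminant ∣[(12 : ℤ)] upperTriangularGL a b d (mul_pos ha hd).ne') z
      = ModularForm.discriminant (upperTriangularGL a b d (mul_pos ha hd).ne' • z)
        * ((a * d : ℝ) : ℂ) ^ (11 : ℕ) * ((d : ℂ) ^ (12 : ℕ))⁻¹ := by
  have hdet : ((upperTriangularGL a b d (mul_pos ha hd).ne').det : ℝ) = a * d := by
    rw [Matrix.GeneralLinearGroup.val_det_apply, val_upperTriangularGL, Matrix.det_fin_two_of]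
    ring
  have hσ : UpperHalfPlane.σ (upperTriangularGL a b d (mul_pos ha hd).ne') = .refl ℝ ℂ := by
    rw [UpperHalfPlane.σ, if_pos (by rw [hdet]; exact mul_pos ha hd)]
  have hden : UpperHalfPlane.denom (upperTriangularGL a b d (mul_pos ha hd).ne') z = d := by
    simp [UpperHalfPlane.denom, val_upperTriangularGL]
  rw [ModularForm.slash_def]
  simp only [hσ, hden]
  simp only [Matrix.GeneralLinearGroup.val_det_apply] at hdet ⊢
  rw [hdet, abs_of_pos (mul_pos ha hd)]
  simp

end Fermat.Agent.LibS23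

namespace Fermat.Agent.LibS23

open UpperHalfPlane ModularForm CongruenceSubgroup MatrixGroups Filter Matrix.SpecialLinearGroup
open scoped Manifold Topology Real

/-- Hermite-type decomposition of `diag(N,1) * γ`. -/
theorem diag_mul_SL_decomp (N : ℕ) [NeZero N] (γ : SL(2, ℤ)) :
    ∃ (γ' : SL(2, ℤ)) (g N₁ : ℕ) (b' : ℤ) (hg : 0 < g) (hN₁ : 0 < N₁),
      g * N₁ = N ∧ ((N₁ = 1) → γ ∈ Gamma0 N) ∧
      heckeDiagMatrix N * mapGL ℝ γ
        = mapGL ℝ γ' * upperTriangularGL g b' N₁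
            (mul_pos (Nat.cast_pos.mpr hg) (Nat.cast_pos.mpr hN₁)).ne' := by
  have hN : N ≠ 0 := NeZero.ne N
  set a := γ 0 0 with ha
  set b := γ 0 1 with hb
  set c := γ 1 0 with hc
  set d := γ 1 1 with hd
  have hdet : a * d - b * c = 1 := by
    have := γ.det_coe
    rw [Matrix.det_fin_two] at this
    exact this
  set g : ℕ := Int.gcd c N with hg
  have hgpos : 0 < g := Int.gcd_pos_of_ne_zero_right _ (by exact_mod_cast hN)
  obtain ⟨N₁, hN₁⟩ : g ∣ N := by
    have : (g : ℤ) ∣ (N : ℤ) := Int.gcd_dvd_right c N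
    exact_mod_cast this
  obtain ⟨c₁, hc₁⟩ : (g : ℤ) ∣ c := Int.gcd_dvd_left c N
  have hN₁pos : 0 < N₁ := by
    rcases Nat.eq_zero_or_pos N₁ with h | h
    · rw [h, mul_zero] at hN₁; exact absurd hN₁ hN
    · exact h
  have hbez : (g : ℤ) = c * Int.gcdA c N + N * Int.gcdB c N := Int.gcd_eq_gcd_ab c N
  set u := Int.gcdB c N with hu
  set v := Int.gcdA c N with hv
  set x := u * d with hx
  set y := v - u * N * b with hy
  have hNZ : (N : ℤ) = g * N₁ := by exact_mod_cast hN₁
  have hgne : (g : ℤ) ≠ 0 := by exact_mod_cast hgpos.ne'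
  have h00 : x * (N * a) + y * c = g := by
    rw [hx, hy, hbez]
    have : a * d = 1 + b * c := by linarith
    calc u * d * (↑N * a) + (v - u * ↑N * b) * c
        = u * N * (a * d) - u * N * (b * c) + v * c := by ring
      _ = c * v + N * u := by rw [this]; ring
  have hdet' : x * (N₁ * a) + y * c₁ = 1 := by
    have : (g : ℤ) * (x * (N₁ * a) + y * c₁) = g * 1 := by
      calc (g : ℤ) * (x * (N₁ * a) + y * c₁) = x * ((g * N₁) * a) + y * (g * c₁) := by ring
        _ = x * (N * a) + y * c := by rw [← hNZ, ← hc₁]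
        _ = g * 1 := by rw [h00, mul_one]
    exact mul_left_cancel₀ hgne this
  have h10 : -c₁ * (N * a) + N₁ * a * c = 0 := by
    rw [hNZ, hc₁]; ring
  have h11 : -c₁ * (N * b) + N₁ * a * d = N₁ := by
    have : a * d = 1 + b * c := by linarith
    calc -c₁ * (N * b) + N₁ * a * d = -c₁ * ((g * N₁) * b) + N₁ * (a * d) := by rw [hNZ]; ring
      _ = -c₁ * ((g * N₁) * b) + N₁ * (1 + b * (g * c₁)) := by rw [this, hc₁]
      _ = N₁ := by ring
  set γ'' : SL(2, ℤ) := ⟨!![x, y; -c₁, N₁ * a], by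
    rw [Matrix.det_fin_two_of]; linarith⟩ with hγ''
  refine ⟨γ''⁻¹, g, N₁, x * (N * b) + y * d, hgpos, hN₁pos, hN₁.symm, ?_, ?_⟩
  · intro h1
    rw [Gamma0_mem]
    rw [h1, mul_one] at hN₁
    rw [(ZMod.intCast_zmod_eq_zero_iff_dvd _ _)]
    rw [hN₁]
    exact Int.gcd_dvd_left c N
  · rw [map_inv, eq_inv_mul_iff_mul_eq]
    apply Units.ext
    rw [Units.val_mul, Units.val_mul, val_heckeDiagMatrix hN, val_upperTriangularGL,
      mapGL_coe_matrix, mapGL_coe_matrix]
    have e00 := congrArg (Int.cast : ℤ → ℝ) h00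
    have e10 := congrArg (Int.cast : ℤ → ℝ) h10
    have e11 := congrArg (Int.cast : ℤ → ℝ) h11
    push_cast at e00 e10 e11
    have hγm : ((Matrix.SpecialLinearGroup.map (algebraMap ℤ ℝ) γ : SL(2, ℝ)) :
        Matrix (Fin 2) (Fin 2) ℝ) = !![(a : ℝ), (b : ℝ); (c : ℝ), (d : ℝ)] := by
      ext i j
      fin_cases i <;> fin_cases j <;> simp [ha, hb, hc, hd]
    have hγ''m : ((Matrix.SpecialLinearGroup.map (algebraMap ℤ ℝ) γ'' : SL(2, ℝ)) :
        Matrix (Fin 2) (Fin 2) ℝ) = !![(x : ℝ), (y : ℝ); -(c₁ : ℝ), (N₁ : ℝ) * (a : ℝ)] := by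
      ext i j
      fin_cases i <;> fin_cases j <;> simp [hγ'']
    rw [hγm, hγ''m]
    simp only [Matrix.mul_fin_two]
    ext i j
    fin_cases i <;> fin_cases j <;> simp
    all_goals first | linarith | (push_cast; ring) | (push_cast; linarith)

end Fermat.Agent.LibS23

namespace Fermat.Agent.LibS23

open UpperHalfPlane ModularForm CongruenceSubgroup MatrixGroups Filter Matrix.SpecialLinearGroup
open scoped Manifold Topology Real

theorem heckeDiagMatrix_eq_upper (N : ℕ) (hN : 0 < N) :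
    heckeDiagMatrix N = upperTriangularGL N 0 1
      (mul_pos (Nat.cast_pos.mpr hN) one_pos).ne' := by
  simp [heckeDiagMatrix, hN.ne']

/-- comparing growth of `Δ` along two upper triangular substitutions -/
theorem discriminant_growth_le (a b d a' b' d' C : ℝ) (ha : 0 < a) (hd : 0 < d) (ha' : 0 < a')
    (hd' : 0 < d')
    (h : ∀ z : ℍ, ‖ModularForm.discriminant (upperTriangularGL a b d (mul_pos ha hd).ne' • z)‖
      = C * ‖ModularForm.discriminant (upperTriangularGL a' b' d' (mul_pos ha' hd').ne' • z)‖) :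
    a / d ≤ a' / d' := by
  by_contra hlt
  rw [not_le] at hlt
  have hCpos : 0 < C := by
    have h1 := h UpperHalfPlane.I
    have hp1 : 0 < ‖ModularForm.discriminant
        (upperTriangularGL a b d (mul_pos ha hd).ne' • UpperHalfPlane.I)‖ :=
      norm_pos_iff.mpr (discriminant_ne_zero _)
    have hp2 : 0 < ‖ModularForm.discriminant
        (upperTriangularGL a' b' d' (mul_pos ha' hd').ne' • UpperHalfPlane.I)‖ :=
      norm_pos_iff.mpr (discriminant_ne_zero _)
    by_contra hC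
    rw [not_lt] at hC
    nlinarith
  set ρ : ℍ → ℝ := fun w => ‖ModularForm.discriminant w‖ * Real.exp (2 * π * w.im) with hρ
  have hρ1 : Tendsto (fun z : ℍ => ρ (upperTriangularGL a b d (mul_pos ha hd).ne' • z))
      atImInfty (𝓝 1) :=
    tendsto_norm_discriminant_mul_exp.comp (tendsto_upperTriangularGL_smul a b d ha hd)
  have hρ2 : Tendsto (fun z : ℍ => ρ (upperTriangularGL a' b' d' (mul_pos ha' hd').ne' • z))
      atImInfty (𝓝 1) :=
    tendsto_norm_discriminant_mul_exp.comp (tendsto_upperTriangularGL_smul a' b' d' ha' hd')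
  set κ : ℝ := a / d - a' / d' with hκ
  have hκpos : 0 < κ := by rw [hκ]; linarith
  have hid : ∀ z : ℍ, ρ (upperTriangularGL a b d (mul_pos ha hd).ne' • z)
      = ρ (upperTriangularGL a' b' d' (mul_pos ha' hd').ne' • z)
        * (Real.exp (2 * π * κ * z.im) * C) := by
    intro z
    simp only [hρ]
    rw [h z, im_upperTriangularGL_smul a b d ha hd z, im_upperTriangularGL_smul a' b' d' ha' hd' z]
    have : Real.exp (2 * π * (a / d * z.im))
        = Real.exp (2 * π * (a' / d' * z.im)) * Real.exp (2 * π * κ * z.im) := by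
      rw [← Real.exp_add]
      congr 1
      rw [hκ]; ring
    rw [this]
    ring
  have hexp : Tendsto (fun z : ℍ => Real.exp (2 * π * κ * z.im) * C) atImInfty atTop := by
    apply Tendsto.atTop_mul_const hCpos
    apply Real.tendsto_exp_atTop.comp
    apply Tendsto.const_mul_atTop (by positivity)
    rw [atImInfty]
    exact tendsto_comap
  have htop : Tendsto (fun z : ℍ => ρ (upperTriangularGL a' b' d' (mul_pos ha' hd').ne' • z)
      * (Real.exp (2 * π * κ * z.im) * C)) atImInfty atTop :=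
    Tendsto.pos_mul_atTop one_pos hρ2 hexp
  have hρ1' : Tendsto (fun z : ℍ => ρ (upperTriangularGL a' b' d' (mul_pos ha' hd').ne' • z)
      * (Real.exp (2 * π * κ * z.im) * C)) atImInfty (𝓝 1) :=
    hρ1.congr hid
  exact not_tendsto_nhds_of_tendsto_atTop htop 1 hρ1'

/-- **Separation**: `t = N^{11}Δ(Nz)` is invariant under `γ ∈ SL₂(ℤ)` only if `γ ∈ Γ₀(N)`. -/
theorem tFun_separation (N : ℕ) [NeZero N] (γ : SL(2, ℤ))
    (h : tFun N ∣[(12 : ℤ)] (mapGL ℝ γ) = tFun N) : γ ∈ Gamma0 N := by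
  have hN : N ≠ 0 := NeZero.ne N
  have hNpos : 0 < N := Nat.pos_of_ne_zero hN
  obtain ⟨γ', g, N₁, b', hg, hN₁, hgN, hmem, hdec⟩ := diag_mul_SL_decomp N γ
  by_contra hγ
  have hN₁ne : N₁ ≠ 1 := fun h1 => hγ (hmem h1)
  have hN₁2 : 2 ≤ N₁ := by omega
  have hgR : (0 : ℝ) < g := Nat.cast_pos.mpr hg
  have hN₁R : (0 : ℝ) < N₁ := Nat.cast_pos.mpr hN₁
  have hNR : (0 : ℝ) < N := Nat.cast_pos.mpr hNpos
  have hDeq : heckeDiagMatrix N = upperTriangularGL N 0 1 (mul_pos hNR one_pos).ne' :=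
    heckeDiagMatrix_eq_upper N hNpos
  have hgN' : ((g : ℝ) * (N₁ : ℝ)) = (N : ℝ) := by exact_mod_cast hgN
  -- the slash identity
  have hslash : ModularForm.discriminant ∣[(12 : ℤ)]
        upperTriangularGL g b' N₁ (mul_pos hgR hN₁R).ne'
      = ModularForm.discriminant ∣[(12 : ℤ)] upperTriangularGL N 0 1 (mul_pos hNR one_pos).ne' := by
    have h1 : tFun N ∣[(12 : ℤ)] (mapGL ℝ γ) = ModularForm.discriminant ∣[(12 : ℤ)]
        upperTriangularGL g b' N₁ (mul_pos hgR hN₁R).ne' := by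
      rw [tFun, ← SlashAction.slash_mul, hdec, SlashAction.slash_mul, discriminant_slash_SL]
    rw [← h1, h, tFun, hDeq]
  -- pointwise
  have hpt : ∀ z : ℍ, ‖ModularForm.discriminant
        (upperTriangularGL N 0 1 (mul_pos hNR one_pos).ne' • z)‖
      = ((N₁ : ℝ) ^ (12 : ℕ))⁻¹ * ‖ModularForm.discriminant
        (upperTriangularGL g b' N₁ (mul_pos hgR hN₁R).ne' • z)‖ := by
    intro z
    have h1 := congrFun hslash z
    rw [discriminant_slash_upperTriangular g b' N₁ hgR hN₁R z,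
      discriminant_slash_upperTriangular N 0 1 hNR one_pos z] at h1
    obtain ⟨wU, hwU⟩ : ∃ w : ℍ, w = upperTriangularGL g b' N₁ (mul_pos hgR hN₁R).ne' • z :=
      ⟨_, rfl⟩
    obtain ⟨wD, hwD⟩ : ∃ w : ℍ, w = upperTriangularGL N 0 1 (mul_pos hNR one_pos).ne' • z :=
      ⟨_, rfl⟩
    rw [← hwU, ← hwD] at h1 ⊢
    rw [hgN'] at h1
    have h2 := congrArg norm h1
    simp only [norm_mul, norm_pow, norm_inv, Complex.norm_real, Real.norm_eq_abs, mul_one,
      Complex.ofReal_one, one_pow, inv_one, abs_of_pos hNR, abs_of_pos hN₁R] at h2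
    have hNpow : (0 : ℝ) < (N : ℝ) ^ (11 : ℕ) := pow_pos hNR _
    have h3 : ‖ModularForm.discriminant wD‖ * (N : ℝ) ^ (11 : ℕ)
        = (((N₁ : ℝ) ^ (12 : ℕ))⁻¹ * ‖ModularForm.discriminant wU‖) * (N : ℝ) ^ (11 : ℕ) := by
      rw [← h2]; ring
    exact mul_right_cancel₀ hNpow.ne' h3
  have hle := discriminant_growth_le N 0 1 g b' N₁ _ hNR one_pos hgR hN₁R hpt
  have h2 : (2 : ℝ) ≤ N₁ := by exact_mod_cast hN₁2
  have h3 : (g : ℝ) / N₁ < g := by
    rw [div_lt_iff₀ hN₁R]
    nlinarith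
  have h4 : (g : ℝ) ≤ N := by rw [← hgN']; nlinarith
  rw [div_one] at hle
  linarith

end Fermat.Agent.LibS23
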