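import Fermat.Agent.Lib.S23.Fam
import Fermat.Agent.Lib.S23.Separation

set_option autoImplicit false

namespace Fermat.Agent.LibS23

open UpperHalfPlane ModularForm CongruenceSubgroup MatrixGroups Filter Matrix.SpecialLinearGroup
open SlashInvariantForm
open scoped Manifold Topology

section quot

variable (N : ℕ) [NeZero N]

/-- the coset space `SL₂(ℤ) / Γ₀(N)` -/
abbrev Q : Type :=
  ↥(𝒮ℒ) ⧸ (((Gamma0 N : Subgroup SL(2, ℤ)) : Subgroup (GL (Fin 2) ℝ)).subgroupOf 𝒮ℒ)

instance : Finite (Q N) := inferInstance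

noncomputable instance : Fintype (Q N) := Fintype.ofFinite _

variable {N}

theorem fam_quotientFunc {k : ℤ} (f : ModularForm (Gamma0 N) k) :
    Fam k (quotientFunc f : Q N → ℍ → ℂ) where
  slash h q := quotientFunc_smul f h.2 q
  holo := by
    refine Quotient.forall.mpr fun r => ?_
    exact (ModularFormClass.holo f).slash k _
  bdd := by
    refine Quotient.forall.mpr fun r => ?_
    obtain ⟨_, ⟨γ, rfl⟩⟩ := r
    have := ModularFormClass.bdd_at_infty_slash f (k := k) γ⁻¹
    rw [ModularForm.SL_slash] at this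
    rw [quotientFunc_mk]
    change IsBoundedAtImInfty (⇑f ∣[k] (mapGL ℝ γ)⁻¹)
    rw [← map_inv]
    exact this

theorem fam_quotientFunc_cusp {k : ℤ} (f : CuspForm (Gamma0 N) k) :
    Fam k (quotientFunc f : Q N → ℍ → ℂ) where
  slash h q := quotientFunc_smul f h.2 q
  holo := by
    refine Quotient.forall.mpr fun r => ?_
    exact (ModularFormClass.holo f).slash k _
  bdd := by
    refine Quotient.forall.mpr fun r => ?_
    obtain ⟨_, ⟨γ, rfl⟩⟩ := r
    have := ModularFormClass.bdd_at_infty_slash f (k := k) γ⁻¹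
    rw [ModularForm.SL_slash] at this
    rw [quotientFunc_mk]
    change IsBoundedAtImInfty (⇑f ∣[k] (mapGL ℝ γ)⁻¹)
    rw [← map_inv]
    exact this

theorem quotientFunc_cusp_isZero {k : ℤ} (f : CuspForm (Gamma0 N) k) (q : Q N) :
    IsZeroAtImInfty (quotientFunc f q) := by
  revert q
  refine Quotient.forall.mpr fun r => ?_
  obtain ⟨_, ⟨γ, rfl⟩⟩ := r
  have := CuspFormClass.zero_at_infty_slash f (k := k) γ⁻¹
  rw [ModularForm.SL_slash] at this
  rw [quotientFunc_mk]
  change IsZeroAtImInfty (⇑f ∣[k] (mapGL ℝ γ)⁻¹)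
  rw [← map_inv]
  exact this

/-- the identity coset -/
def q0 : Q N := ((1 : ↥(𝒮ℒ)) : Q N)

theorem quotientFunc_q0 {F : Type*} [FunLike F ℍ ℂ] {k : ℤ}
    [SlashInvariantFormClass F ((Gamma0 N : Subgroup SL(2, ℤ)) : Subgroup (GL (Fin 2) ℝ)) k]
    (f : F) : quotientFunc f (q0 : Q N) = ⇑f := by
  change quotientFunc f ⟦(1 : ↥(𝒮ℒ))⟧ = ⇑f
  rw [quotientFunc_mk]
  simp

end quot

end Fermat.Agent.LibS23

namespace Fermat.Agent.LibS23

open UpperHalfPlane ModularForm CongruenceSubgroup MatrixGroups Filter Matrix.SpecialLinearGroup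
open SlashInvariantForm
open scoped Manifold Topology

section sep

variable {N : ℕ} [NeZero N]

theorem quotientFunc_tForm_injective :
    Function.Injective (quotientFunc (tForm N) : Q N → ℍ → ℂ) := by
  intro q q'
  induction q using Quotient.inductionOn with
  | h r =>
  induction q' using Quotient.inductionOn with
  | h r' =>
  obtain ⟨_, ⟨γ, rfl⟩⟩ := r
  obtain ⟨_, ⟨γ', rfl⟩⟩ := r'
  intro h
  rw [quotientFunc_mk, quotientFunc_mk] at h
  change tFun N ∣[(12 : ℤ)] (mapGL ℝ γ)⁻¹ = tFun N ∣[(12 : ℤ)] (mapGL ℝ γ')⁻¹ at h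
  have h2 := congrArg (fun F => F ∣[(12 : ℤ)] (mapGL ℝ γ')) h
  simp only [← SlashAction.slash_mul, inv_mul_cancel, SlashAction.slash_one] at h2
  rw [← map_inv, ← map_mul] at h2
  have hmem := tFun_separation N (γ⁻¹ * γ') h2
  refine Quotient.sound (QuotientGroup.leftRel_apply.mpr ?_)
  rw [Subgroup.mem_subgroupOf]
  refine ⟨γ⁻¹ * γ', hmem, ?_⟩
  simp

end sep

end Fermat.Agent.LibS23

namespace Fermat.Agent.LibS23

open UpperHalfPlane ModularForm CongruenceSubgroup MatrixGroups Filter Matrix.SpecialLinearGroup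
open SlashInvariantForm
open scoped Manifold Topology

theorem vandermonde_cramer {n : Type*} [Fintype n] [DecidableEq n] {R : Type*} [CommRing R]
    (V : Matrix n n R) (F : n → R) :
    V.mulVec (Matrix.cramer (V.transpose * V) (V.transpose.mulVec F))
      = (V.transpose * V).det • F := by
  rw [Matrix.cramer_eq_adjugate_mulVec, Matrix.adjugate_mul_distrib, Matrix.mulVec_mulVec,
    Matrix.mulVec_mulVec]
  have h : V * (V.adjugate * V.transpose.adjugate) * V.transpose
      = (V.transpose * V).det • (1 : Matrix n n R) := by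
    calc V * (V.adjugate * V.transpose.adjugate) * V.transpose
        = (V * V.adjugate) * (V.transpose.adjugate * V.transpose) := by
          simp only [Matrix.mul_assoc]
      _ = (V.det • (1 : Matrix n n R)) * (V.transpose.det • (1 : Matrix n n R)) := by
          rw [Matrix.mul_adjugate, Matrix.adjugate_mul]
      _ = (V.transpose * V).det • (1 : Matrix n n R) := by
          rw [Matrix.det_mul, Matrix.smul_mul, Matrix.one_mul, smul_smul, mul_comm]
  rw [h, Matrix.smul_mulVec, Matrix.one_mulVec]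

end Fermat.Agent.LibS23

namespace Fermat.Agent.LibS23

open UpperHalfPlane ModularForm CongruenceSubgroup MatrixGroups Filter Matrix.SpecialLinearGroup
open SlashInvariantForm
open scoped Manifold Topology

/-- **Level-one data attached to a cusp form on `Γ₀(N)`**: an expression `D₀ f = ∑ C_i t^i`
with level-one coefficients and `D₀ ≠ 0`, and a monic equation for `f` with level-one
cuspidal coefficients. -/
theorem exists_level_one_data (N : ℕ) [NeZero N] (f : CuspForm (Gamma0 N) 2) :
    ∃ (μ : ℕ) (K : ℤ) (D₀ : ℍ → ℂ) (C : Fin μ → ℍ → ℂ) (w : Fin μ → ℤ) (E : ℕ → ℍ → ℂ),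
      0 < μ ∧ IsLO K D₀ ∧ D₀ ≠ 0 ∧
      (∀ i, IsLO (w i) (C i)) ∧ (∀ i : Fin μ, w i + 12 * (i : ℤ) = K + 2) ∧
      D₀ * ⇑f = ∑ i : Fin μ, C i * tFun N ^ (i : ℕ) ∧
      (∀ j : ℕ, IsLO (2 * (j : ℤ)) (E j)) ∧ (∀ j : ℕ, 1 ≤ j → IsZeroAtImInfty (E j)) ∧
      ⇑f ^ μ + ∑ j ∈ Finset.range μ, (-1) ^ (j + 1) * (E (j + 1) * ⇑f ^ (μ - (j + 1))) = 0 := by
  classical
  set μ := Fintype.card (Q N) with hμdef
  have hμ : 0 < μ := Fintype.card_pos_iff.mpr ⟨(q0 : Q N)⟩
  let e : Q N ≃ Fin μ := Fintype.equivFin (Q N)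
  set tq : Q N → ℍ → ℂ := quotientFunc (tForm N) with htqdef
  set fq : Q N → ℍ → ℂ := quotientFunc f with hfqdef
  have htq : Fam 12 tq := fam_quotientFunc (tForm N)
  have hfq : Fam 2 fq := fam_quotientFunc_cusp f
  have htq0 : tq q0 = tFun N := by
    rw [htqdef, quotientFunc_q0, coe_tForm]
  have hfq0 : fq q0 = ⇑f := by
    rw [hfqdef, quotientFunc_q0]
  let v : Fin μ → ℍ → ℂ := fun j => tq (e.symm j)
  let V : Matrix (Fin μ) (Fin μ) (ℍ → ℂ) := Matrix.vandermonde v
  let Fv : Fin μ → ℍ → ℂ := fun j => fq (e.symm j)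
  let M : Matrix (Fin μ) (Fin μ) (ℍ → ℂ) := V.transpose * V
  let b : Fin μ → ℍ → ℂ := V.transpose.mulVec Fv
  have hM : ∀ l i, M l i = ∑ q, tq q ^ (l : ℕ) * tq q ^ (i : ℕ) := by
    intro l i
    have : M l i = ∑ j, tq (e.symm j) ^ (l : ℕ) * tq (e.symm j) ^ (i : ℕ) := by
      simp [M, V, v, Matrix.mul_apply, Matrix.vandermonde_apply]
    rw [this]
    exact Equiv.sum_comp e.symm (fun q => tq q ^ (l : ℕ) * tq q ^ (i : ℕ))
  have hb : ∀ l, b l = ∑ q, tq q ^ (l : ℕ) * fq q := by
    intro l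
    have : b l = ∑ j, tq (e.symm j) ^ (l : ℕ) * fq (e.symm j) := by
      simp [b, V, v, Fv, Matrix.mulVec, dotProduct, Matrix.vandermonde_apply]
    rw [this]
    exact Equiv.sum_comp e.symm (fun q => tq q ^ (l : ℕ) * fq q)
  set r : Fin μ → ℤ := fun l => (l : ℤ) * 12 with hr
  have hMLO : ∀ l i, IsLO (r l + r i) (M l i) := by
    intro l i
    rw [hM]
    exact ((htq.pow l).mul (htq.pow i)).trace
  have hbLO : ∀ l, IsLO (r l + 2) (b l) := by
    intro l
    rw [hb]
    exact ((htq.pow l).mul hfq).trace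
  set K : ℤ := ∑ l, r l + ∑ i, r i with hK
  have hD₀ : IsLO K M.det := IsLO.det r r M hMLO
  set w : Fin μ → ℤ := fun i => ∑ l, r l + ∑ i', (if i' = i then 2 else r i') with hw
  have hC : ∀ i, IsLO (w i) (Matrix.cramer M b i) := by
    intro i
    rw [Matrix.cramer_apply]
    refine IsLO.det r (fun i' => if i' = i then 2 else r i') (M.updateCol i b) ?_
    intro l i'
    rw [Matrix.updateCol_apply]
    split_ifs with h
    · exact hbLO l
    · exact hMLO l i'
  have hwt : ∀ i : Fin μ, w i + 12 * (i : ℤ) = K + 2 := by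
    intro i
    have h1 : ∑ i', (if i' = i then (2 : ℤ) else r i')
        = ∑ i', (r i' + if i' = i then (2 - r i) else 0) := by
      refine Finset.sum_congr rfl fun i' _ => ?_
      split_ifs with h
      · rw [h]; ring
      · ring
    simp only [hw, hK]
    rw [h1, Finset.sum_add_distrib, Finset.sum_ite_eq' Finset.univ i]
    simp only [Finset.mem_univ, if_true, hr]
    ring
  -- the main identity
  have hmain : M.det * ⇑f = ∑ i : Fin μ, Matrix.cramer M b i * tFun N ^ (i : ℕ) := by
    have h1 := congrFun (vandermonde_cramer V Fv) (e q0)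
    have h2 : (V.mulVec (Matrix.cramer M b)) (e q0)
        = ∑ i : Fin μ, Matrix.cramer M b i * tFun N ^ (i : ℕ) := by
      simp only [Matrix.mulVec, dotProduct, V, v, Matrix.vandermonde_apply, Equiv.symm_apply_apply,
        htq0]
      exact Finset.sum_congr rfl fun i _ => mul_comm _ _
    have h3 : ((M.det • Fv) (e q0)) = M.det * ⇑f := by
      simp only [Pi.smul_apply, smul_eq_mul, Fv, Equiv.symm_apply_apply, hfq0]
    rw [← h2, ← h3]
    exact h1.symm
  -- nonvanishing
  have hvinj : Function.Injective v := fun i j hij =>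
    e.symm.injective (quotientFunc_tForm_injective hij)
  have hvholo : ∀ j, MDiff (v j) := fun j => htq.holo _
  have hdetV : V.det = ∏ i, ∏ j ∈ Finset.Ioi i, (v j - v i) := Matrix.det_vandermonde v
  have hVne : V.det ≠ 0 := by
    rw [hdetV]
    intro h0
    rw [UpperHalfPlane.prod_eq_zero_iff
      (fun i _ => MDifferentiable.prod fun j _ => (hvholo j).sub (hvholo i))] at h0
    obtain ⟨i, -, hi⟩ := h0
    rw [UpperHalfPlane.prod_eq_zero_iff (fun j _ => (hvholo j).sub (hvholo i))] at hi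
    obtain ⟨j, hj, hji⟩ := hi
    have : j = i := hvinj (sub_eq_zero.mp hji)
    rw [this] at hj
    exact (lt_irrefl i) (Finset.mem_Ioi.mp hj)
  have hVholo : MDiff V.det := by
    rw [hdetV]
    exact MDifferentiable.prod fun i _ => MDifferentiable.prod fun j _ => (hvholo j).sub (hvholo i)
  have hD₀ne : M.det ≠ 0 := by
    have : M.det = V.det * V.det := by
      simp only [M, Matrix.det_mul, Matrix.det_transpose]
    rw [this]
    intro h0
    rcases (UpperHalfPlane.mul_eq_zero_iff hVholo hVholo).mp h0 with h | h <;> exact hVne h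
  -- Vieta
  have hvieta := esym_vieta fq q0
  rw [Finset.sum_range_succ', hfq0] at hvieta
  simp only [esym_zero, pow_zero, one_mul, Nat.sub_zero] at hvieta
  refine ⟨μ, K, M.det, Matrix.cramer M b, w, esym fq, hμ, hD₀, hD₀ne, hC, hwt, hmain,
    fun j => hfq.isLO_esym j, fun j hj => Fam.esym_isZeroAtImInfty (quotientFunc_cusp_isZero f) hj,
    ?_⟩
  rw [add_comm]
  exact hvieta

end Fermat.Agent.LibS23
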