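import Mathlib

/-!
# S23 Module B: division lemma on the upper half plane

If `G`, `D` are holomorphic on `ℍ`, `D ≠ 0`, and `‖G‖ ≤ B * ‖D‖` for a continuous `B`,
then `G = h * D` with `h` holomorphic on `ℍ` (removable singularities at the zeros of `D`).
-/

set_option autoImplicit false

open UpperHalfPlane Filter Topology
open scoped Manifold

namespace Fermat.Agent.LibS23

/-- zeros of a nonzero holomorphic function on `ℍ` are isolated (complex-plane version). -/
theorem eventually_ne_zero_of_mdiff (D : ℍ → ℂ) (hD : MDiff D) (hD0 : D ≠ 0)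
    (z : ℂ) (hz : 0 < z.im) : ∀ᶠ w in 𝓝[≠] z, (D ∘ ofComplex) w ≠ 0 := by
  by_contra hcon
  rw [Filter.not_eventually] at hcon
  apply hD0
  have hD'd : DifferentiableOn ℂ (D ∘ ofComplex) {z | 0 < z.im} := UpperHalfPlane.mdifferentiable_iff.mp hD
  have han : AnalyticOnNhd ℂ (D ∘ ofComplex) {z | 0 < z.im} :=
    hD'd.analyticOnNhd isOpen_upperHalfPlaneSet
  have hpre : IsPreconnected {z : ℂ | 0 < z.im} :=
    (Complex.isConnected_of_upperHalfPlane subset_rfl (by grind)).isPreconnected
  have h0 : Set.EqOn (D ∘ ofComplex) 0 {z | 0 < z.im} :=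
    han.eqOn_zero_of_preconnected_of_frequently_eq_zero hpre hz (by simpa using hcon)
  ext w
  have := h0 w.im_pos
  simpa [ofComplex_apply] using this

theorem exists_mdiff_eq_mul (G D : ℍ → ℂ) (hG : MDiff G) (hD : MDiff D) (hD0 : D ≠ 0)
    (B : ℍ → ℝ) (hB : Continuous B) (hbound : ∀ z, ‖G z‖ ≤ B z * ‖D z‖) :
    ∃ h : ℍ → ℂ, MDiff h ∧ G = h * D := by
  classical
  have hUo : IsOpen {z : ℂ | 0 < z.im} := isOpen_upperHalfPlaneSet
  have hG'd : DifferentiableOn ℂ (G ∘ ofComplex) {z | 0 < z.im} := UpperHalfPlane.mdifferentiable_iff.mp hG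
  have hD'd : DifferentiableOn ℂ (D ∘ ofComplex) {z | 0 < z.im} := UpperHalfPlane.mdifferentiable_iff.mp hD
  set Q : ℂ → ℂ := fun w => (G ∘ ofComplex) w / (D ∘ ofComplex) w with hQ
  set h' : ℂ → ℂ := fun z => limUnder (𝓝[≠] z) Q with hh'
  -- `Q` is differentiable at points of `ℍ` where `D ≠ 0`, and there `h' = Q`.
  have hQd : ∀ w : ℂ, 0 < w.im → (D ∘ ofComplex) w ≠ 0 → DifferentiableAt ℂ Q w := by
    intro w hw hDw
    exact ((hG'd w hw).differentiableAt (hUo.mem_nhds hw)).div
      ((hD'd w hw).differentiableAt (hUo.mem_nhds hw)) hDw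
  have hh'Q : ∀ w : ℂ, 0 < w.im → (D ∘ ofComplex) w ≠ 0 → h' w = Q w := by
    intro w hw hDw
    have hc : ContinuousAt Q w := (hQd w hw hDw).continuousAt
    exact (hc.tendsto.mono_left nhdsWithin_le_nhds).limUnder_eq
  -- local boundedness of `Q` near each point of `ℍ`
  have hdiff : ∀ z : ℂ, 0 < z.im → DifferentiableAt ℂ h' z := by
    intro z hz
    have hiso := eventually_ne_zero_of_mdiff D hD hD0 z hz
    have hBz : ∀ᶠ w in 𝓝 z, B (ofComplex w) < B (ofComplex z) + 1 := by
      have hcont : ContinuousAt (B ∘ ofComplex) z :=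
        hB.continuousAt.comp (ofComplex.continuousAt (by simpa [ofComplex] using hz))
      exact hcont.eventually (gt_mem_nhds (by simp))
    have hUz : ∀ᶠ w in 𝓝 z, 0 < w.im := hUo.mem_nhds hz
    rw [eventually_nhdsWithin_iff] at hiso
    obtain ⟨s, hsub, hso, hzs⟩ := eventually_nhds_iff.mp (hiso.and (hBz.and hUz))
    have hsn : s ∈ 𝓝 z := hso.mem_nhds hzs
    have hd : DifferentiableOn ℂ Q (s \ {z}) := by
      intro w hw
      have h1 := hsub w hw.1
      exact (hQd w h1.2.2 (h1.1 hw.2)).differentiableWithinAt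
    have hb : BddAbove (norm ∘ Q '' (s \ {z})) := by
      refine ⟨B (ofComplex z) + 1, ?_⟩
      rintro _ ⟨w, hw, rfl⟩
      have h1 := hsub w hw.1
      have hDw : (D ∘ ofComplex) w ≠ 0 := h1.1 hw.2
      have hb1 := hbound (ofComplex w)
      have hpos : 0 < ‖D (ofComplex w)‖ := norm_pos_iff.mpr hDw
      simp only [Function.comp_apply, hQ, norm_div]
      rw [div_le_iff₀ hpos]
      calc ‖G (ofComplex w)‖ ≤ B (ofComplex w) * ‖D (ofComplex w)‖ := hb1
        _ ≤ (B (ofComplex z) + 1) * ‖D (ofComplex w)‖ :=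
            mul_le_mul_of_nonneg_right h1.2.1.le (norm_nonneg _)
    have key := Complex.differentiableOn_update_limUnder_of_bddAbove hsn hd hb
    have heq : Set.EqOn h' (Function.update Q z (limUnder (𝓝[≠] z) Q)) s := by
      intro w hw
      by_cases hwz : w = z
      · subst hwz; simp [hh']
      · have h1 := hsub w hw
        rw [Function.update_of_ne hwz]
        exact hh'Q w h1.2.2 (h1.1 hwz)
    exact ((key.congr heq) z hzs).differentiableAt hsn
  refine ⟨fun τ => h' τ, ?_, ?_⟩
  · rw [UpperHalfPlane.mdifferentiable_iff]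
    intro z hz
    have : DifferentiableWithinAt ℂ h' {z | 0 < z.im} z := (hdiff z hz).differentiableWithinAt
    refine this.congr (fun w hw => ?_) ?_
    · simp [Function.comp_apply, ofComplex_apply_of_im_pos hw]
    · simp [Function.comp_apply, ofComplex_apply_of_im_pos hz]
  · ext τ
    simp only [Pi.mul_apply]
    by_cases hDτ : D τ = 0
    · have := hbound τ
      rw [hDτ, norm_zero, mul_zero] at this
      rw [hDτ, mul_zero]
      exact norm_le_zero_iff.mp this
    · have hDw : (D ∘ ofComplex) (τ : ℂ) ≠ 0 := by simpa [ofComplex_apply] using hDτ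
      rw [hh'Q τ τ.im_pos hDw]
      simp only [hQ, Function.comp_apply, ofComplex_apply]
      field_simp

end Fermat.Agent.LibS23
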