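import Fermat.Agent.Lib.S23.Sym
import Fermat.Agent.Lib.S23.Division

set_option autoImplicit false

namespace Fermat.Agent.LibS23

open UpperHalfPlane ModularForm CongruenceSubgroup MatrixGroups Filter Matrix.SpecialLinearGroup
open scoped Manifold Topology

/-! ### The ring of `q`-expandable functions -/

/-- the subring of `q`-expandable functions -/
def QRing : Subring (ℍ → ℂ) where
  carrier := {F | QExp F}
  mul_mem' ha hb := QExp.mul ha hb
  one_mem' := QExp.one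
  add_mem' ha hb := QExp.add ha hb
  zero_mem' := QExp.zero
  neg_mem' ha := QExp.neg ha

theorem mem_QRing {F : ℍ → ℂ} : F ∈ QRing ↔ QExp F := Iff.rfl

/-- the `q`-expansion as a ring homomorphism -/
noncomputable def qxHom : QRing →+* PowerSeries ℂ where
  toFun F := qx F.1
  map_one' := qx_one
  map_mul' a b := qx_mul a.2 b.2
  map_zero' := qx_zero
  map_add' a b := qx_add a.2 b.2

@[simp] theorem qxHom_mk {F : ℍ → ℂ} (hF : QExp F) : qxHom ⟨F, hF⟩ = qx F := rfl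

theorem qxHom_injective : Function.Injective qxHom := by
  intro a b h
  exact Subtype.ext (qx_injective a.2 b.2 h)

/-! ### zero at infinity versus constant coefficient -/

theorem QExp.coeff_zero_of_isZero {F : ℍ → ℂ} (hF : QExp F) (hz : IsZeroAtImInfty F) :
    (qx F).coeff 0 = 0 := by
  rw [qx, qExpansion_coeff_zero one_pos hF.analyticAt hF.1]
  exact hz.valueAtInfty_eq_zero

theorem QExp.isZero_of_coeff_zero {F : ℍ → ℂ} (hF : QExp F) (h0 : (qx F).coeff 0 = 0) :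
    IsZeroAtImInfty F := by
  have hanal := hF.analyticAt
  rw [qx, qExpansion_coeff] at h0
  simp only [Nat.factorial_zero, Nat.cast_one, inv_one, iteratedDeriv_zero, one_mul] at h0
  have h1 : Tendsto (cuspFunction 1 F ∘ fun τ : ℍ => Function.Periodic.qParam 1 (τ : ℂ))
      atImInfty (𝓝 (cuspFunction 1 F 0)) :=
    hanal.continuousAt.tendsto.comp (qParam_tendsto_atImInfty one_pos)
  rw [h0] at h1
  refine h1.congr fun τ => ?_
  exact eq_cuspFunction τ one_ne_zero hF.1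

/-! ### root bounds -/

theorem root_bound_aux (x : ℂ) (μ : ℕ) (c : ℕ → ℂ)
    (h : x ^ μ + ∑ j ∈ Finset.range μ, c j * x ^ (μ - (j + 1)) = 0) :
    ‖x‖ ^ μ ≤ ∑ j ∈ Finset.range μ, ‖c j‖ * ‖x‖ ^ (μ - (j + 1)) := by
  have h1 : x ^ μ = -∑ j ∈ Finset.range μ, c j * x ^ (μ - (j + 1)) := eq_neg_of_add_eq_zero_left h
  calc ‖x‖ ^ μ = ‖x ^ μ‖ := (norm_pow x μ).symm
    _ = ‖∑ j ∈ Finset.range μ, c j * x ^ (μ - (j + 1))‖ := by rw [h1, norm_neg]
    _ ≤ ∑ j ∈ Finset.range μ, ‖c j * x ^ (μ - (j + 1))‖ := norm_sum_le _ _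
    _ = ∑ j ∈ Finset.range μ, ‖c j‖ * ‖x‖ ^ (μ - (j + 1)) := by
        simp only [norm_mul, norm_pow]

/-- Cauchy's root bound. -/
theorem root_bound (x : ℂ) (μ : ℕ) (c : ℕ → ℂ)
    (h : x ^ μ + ∑ j ∈ Finset.range μ, c j * x ^ (μ - (j + 1)) = 0) :
    ‖x‖ ≤ max 1 (∑ j ∈ Finset.range μ, ‖c j‖) := by
  by_contra hlt
  rw [not_le, max_lt_iff] at hlt
  obtain ⟨h1, h2⟩ := hlt
  have hpos : 0 < ‖x‖ := lt_trans one_pos h1
  have hμ : 0 < μ := by
    rcases Nat.eq_zero_or_pos μ with h0 | h0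
    · subst h0
      simp at h
    · exact h0
  have hb := root_bound_aux x μ c h
  have hle : ∑ j ∈ Finset.range μ, ‖c j‖ * ‖x‖ ^ (μ - (j + 1))
      ≤ ∑ j ∈ Finset.range μ, ‖c j‖ * ‖x‖ ^ (μ - 1) := by
    refine Finset.sum_le_sum fun j _ => ?_
    refine mul_le_mul_of_nonneg_left ?_ (norm_nonneg _)
    exact pow_le_pow_right₀ h1.le (by omega)
  have h3 : ‖x‖ ^ μ ≤ (∑ j ∈ Finset.range μ, ‖c j‖) * ‖x‖ ^ (μ - 1) := by
    rw [Finset.sum_mul]
    exact hb.trans hle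
  have h4 : ‖x‖ ^ μ = ‖x‖ * ‖x‖ ^ (μ - 1) := by
    rw [← pow_succ']
    congr 1
    omega
  rw [h4] at h3
  have h5 : ‖x‖ ≤ ∑ j ∈ Finset.range μ, ‖c j‖ :=
    le_of_mul_le_mul_right h3 (pow_pos hpos _)
  linarith

/-- small coefficients force small roots -/
theorem root_small (x : ℂ) (μ : ℕ) (c : ℕ → ℂ)
    (h : x ^ μ + ∑ j ∈ Finset.range μ, c j * x ^ (μ - (j + 1)) = 0)
    (hs : ∑ j ∈ Finset.range μ, ‖c j‖ ≤ 1) :
    ‖x‖ ^ μ ≤ ∑ j ∈ Finset.range μ, ‖c j‖ := by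
  have h1 : ‖x‖ ≤ 1 := by
    have := root_bound x μ c h
    rwa [max_eq_left hs] at this
  refine (root_bound_aux x μ c h).trans ?_
  refine Finset.sum_le_sum fun j _ => ?_
  calc ‖c j‖ * ‖x‖ ^ (μ - (j + 1)) ≤ ‖c j‖ * 1 :=
        mul_le_mul_of_nonneg_left (pow_le_one₀ (norm_nonneg _) h1) (norm_nonneg _)
    _ = ‖c j‖ := mul_one _

end Fermat.Agent.LibS23
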