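import Fermat.Agent.Lib.S23.LevelOne
import Fermat.Prelude.Def_ModularForm_HeckeOperator

set_option autoImplicit false

namespace Fermat.Agent.LibS23

open UpperHalfPlane ModularForm CongruenceSubgroup MatrixGroups Filter Matrix.SpecialLinearGroup
open scoped Manifold Topology

/-- Conjugating `Γ₀(N)` by `diag(N,1)` lands in `SL₂(ℤ)`. -/
theorem diag_mul_gamma0 (N : ℕ) [NeZero N] (γ : SL(2, ℤ)) (hγ : γ ∈ Gamma0 N) :
    ∃ γ' : SL(2, ℤ), heckeDiagMatrix N * (mapGL ℝ γ) = (mapGL ℝ γ') * heckeDiagMatrix N := by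
  have hN : N ≠ 0 := NeZero.ne N
  rw [Gamma0_mem] at hγ
  obtain ⟨c', hc'⟩ : (N : ℤ) ∣ γ 1 0 := (ZMod.intCast_zmod_eq_zero_iff_dvd _ _).mp hγ
  have hdet : γ 0 0 * γ 1 1 - γ 0 1 * γ 1 0 = 1 := by
    have := γ.det_coe
    rw [Matrix.det_fin_two] at this
    exact this
  refine ⟨⟨!![γ 0 0, N * γ 0 1; c', γ 1 1], ?_⟩, ?_⟩
  · rw [Matrix.det_fin_two_of]
    rw [hc'] at hdet
    linarith
  · apply Units.ext
    rw [Units.val_mul, Units.val_mul, val_heckeDiagMatrix hN]
    ext i j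
    fin_cases i <;> fin_cases j <;>
      simp [mapGL_coe_matrix, Matrix.mul_apply, Fin.sum_univ_two, hc'] <;> ring

end Fermat.Agent.LibS23

namespace Fermat.Agent.LibS23

open UpperHalfPlane ModularForm CongruenceSubgroup MatrixGroups Filter Matrix.SpecialLinearGroup
open scoped Manifold Topology

/-- `t(z) = N^{11} Δ(N z)` as a function. -/
noncomputable def tFun (N : ℕ) : ℍ → ℂ :=
  ModularForm.discriminant ∣[(12 : ℤ)] heckeDiagMatrix N

theorem discriminant_slash_SL (γ : SL(2, ℤ)) :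
    ModularForm.discriminant ∣[(12 : ℤ)] (mapGL ℝ γ) = ModularForm.discriminant :=
  SlashInvariantFormClass.slash_action_eq CuspForm.discriminant (mapGL ℝ γ) ⟨γ, rfl⟩

theorem tFun_slash_gamma0 (N : ℕ) [NeZero N] (γ : SL(2, ℤ)) (hγ : γ ∈ Gamma0 N) :
    tFun N ∣[(12 : ℤ)] (mapGL ℝ γ) = tFun N := by
  obtain ⟨γ', hγ'⟩ := diag_mul_gamma0 N γ hγ
  rw [tFun, ← SlashAction.slash_mul, hγ', SlashAction.slash_mul, discriminant_slash_SL]

open scoped Pointwise in
theorem gamma0_le_conj (N : ℕ) [NeZero N] :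
    ((Gamma0 N : Subgroup SL(2, ℤ)) : Subgroup (GL (Fin 2) ℝ))
      ≤ ConjAct.toConjAct (heckeDiagMatrix N)⁻¹ • 𝒮ℒ := by
  rintro x ⟨γ, hγ, rfl⟩
  rw [Subgroup.mem_pointwise_smul_iff_inv_smul_mem]
  obtain ⟨γ', hγ'⟩ := diag_mul_gamma0 N γ hγ
  refine ⟨γ', ?_⟩
  rw [← map_inv, inv_inv, ConjAct.toConjAct_smul]
  rw [eq_mul_inv_iff_mul_eq]
  exact hγ'.symm

/-- `t = N^{11} Δ(N z)` as a modular form of weight 12 on `Γ₀(N)`. -/
noncomputable def tForm (N : ℕ) [NeZero N] : ModularForm (Gamma0 N) 12 where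
  toFun := tFun N
  slash_action_eq' := by
    rintro x ⟨γ, hγ, rfl⟩
    exact tFun_slash_gamma0 N γ hγ
  holo' := (ModularFormClass.holo CuspForm.discriminant).slash 12 _
  bdd_at_cusps' := fun {c} hc =>
    (ModularForm.translate CuspForm.discriminant (heckeDiagMatrix N)).bdd_at_cusps'
      (hc.mono (gamma0_le_conj N))

@[simp] theorem coe_tForm (N : ℕ) [NeZero N] : (⇑(tForm N) : ℍ → ℂ) = tFun N := rfl

theorem tFun_apply (N : ℕ) [NeZero N] (z : ℍ) :
    tFun N z = (N : ℂ) ^ (11 : ℕ) * ModularForm.discriminant (heckeDiagMatrix N • z) := by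
  have hN : N ≠ 0 := NeZero.ne N
  rw [tFun, ModularForm.slash_def]
  simp only [σ_heckeDiagMatrix, denom_heckeDiagMatrix hN]
  have hdet : ((heckeDiagMatrix N).det : ℝ) = N := det_heckeDiagMatrix hN
  simp only [Matrix.GeneralLinearGroup.val_det_apply] at hdet ⊢
  rw [hdet]
  simp
  ring

end Fermat.Agent.LibS23

namespace Fermat.Agent.LibS23

open UpperHalfPlane ModularForm CongruenceSubgroup MatrixGroups Filter Matrix.SpecialLinearGroup
open scoped Manifold Topology

theorem QExp.discriminant : QExp ModularForm.discriminant :=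
  QExp.of_levelOne (CuspForm.discriminant : ModularForm 𝒮ℒ 12)

theorem QExp.tFun (N : ℕ) [NeZero N] : QExp (tFun N) := QExp.of_gamma0 (tForm N)

/-- The `q`-expansion coefficients of `t = N^{11} Δ(Nz)`. -/
theorem qx_tFun_coeff (N : ℕ) [NeZero N] (n : ℕ) :
    (qx (tFun N)).coeff n
      = if N ∣ n then (N : ℂ) ^ (11 : ℕ) * (qx ModularForm.discriminant).coeff (n / N) else 0 := by
  have hN : N ≠ 0 := NeZero.ne N
  have hNpos : 0 < N := Nat.pos_of_ne_zero hN
  set a : ℕ → ℂ := fun m => (qx ModularForm.discriminant).coeff m with ha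
  set c : ℕ → ℂ := fun n => if N ∣ n then (N : ℂ) ^ (11 : ℕ) * a (n / N) else 0 with hc
  suffices h : ∀ τ : ℍ, HasSum (fun m ↦ c m • Function.Periodic.qParam 1 τ ^ m) (tForm N τ) from
    (ModularFormClass.qExpansion_coeff_unique one_pos
      (CongruenceSubgroup.one_mem_strictPeriods_Gamma0 N) (f := tForm N) h n).symm
  intro τ
  have hΔ : HasSum (fun m : ℕ => a m • Function.Periodic.qParam 1
      ((heckeDiagMatrix N • τ : ℍ) : ℂ) ^ m) (ModularForm.discriminant (heckeDiagMatrix N • τ)) :=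
    hasSum_qExpansion one_pos QExp.discriminant.1 QExp.discriminant.2.1
      QExp.discriminant.2.2 (heckeDiagMatrix N • τ)
  have hq : Function.Periodic.qParam 1 ((heckeDiagMatrix N • τ : ℍ) : ℂ)
      = Function.Periodic.qParam 1 (τ : ℂ) ^ N := by
    rw [coe_heckeDiagMatrix_smul hN]
    simp only [Function.Periodic.qParam]
    rw [← Complex.exp_nat_mul]
    congr 1
    push_cast
    ring
  rw [hq] at hΔ
  have hΔ' := hΔ.mul_left ((N : ℂ) ^ (11 : ℕ))
  have hval : (tForm N) τ = (N : ℂ) ^ (11 : ℕ) * ModularForm.discriminant (heckeDiagMatrix N • τ) :=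
    tFun_apply N τ
  rw [hval]
  have hinj : Function.Injective (fun m : ℕ => m * N) := fun a b hab =>
    Nat.eq_of_mul_eq_mul_right hNpos hab
  have hzero : ∀ x ∉ Set.range (fun m : ℕ => m * N),
      (fun m ↦ c m • Function.Periodic.qParam 1 (τ : ℂ) ^ m) x = 0 := by
    intro x hx
    have : ¬ N ∣ x := by
      rintro ⟨m, rfl⟩
      exact hx ⟨m, by simp [mul_comm]⟩
    simp only [hc, this, if_false, zero_smul]
  rw [← hinj.hasSum_iff hzero]
  have hfun : ((fun m ↦ c m • Function.Periodic.qParam 1 (τ : ℂ) ^ m) ∘ fun m : ℕ => m * N)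
      = fun m : ℕ => (N : ℂ) ^ (11 : ℕ) * (a m • (Function.Periodic.qParam 1 (τ : ℂ) ^ N) ^ m) := by
    funext m
    have h1 : N ∣ m * N := dvd_mul_left N m
    have h2 : m * N / N = m := Nat.mul_div_cancel m hNpos
    simp only [Function.comp_apply, hc, h1, if_true, h2, smul_eq_mul]
    rw [← pow_mul, mul_comm N m]
    ring
  rw [hfun]
  exact hΔ'

theorem map_qx_tFun (σ : ℂ →+* ℂ) (N : ℕ) [NeZero N] : (qx (tFun N)).map σ = qx (tFun N) := by
  ext n
  rw [PowerSeries.coeff_map, qx_tFun_coeff]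
  split_ifs with h
  · rw [map_mul, map_pow, map_natCast]
    congr 1
    have := congrArg (fun p => PowerSeries.coeff (n / N) p) (map_qx_discriminant σ)
    simpa [PowerSeries.coeff_map] using this
  · simp

end Fermat.Agent.LibS23
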