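import Fermat.Agent.Lib.S23.ConjAux

set_option autoImplicit false

namespace Fermat.Agent.LibS23

open UpperHalfPlane ModularForm CongruenceSubgroup MatrixGroups Filter Matrix.SpecialLinearGroup
open scoped Manifold Topology

/-! ### invariance under `Γ₀(N)` -/

/-- invariance under `Γ₀(N)` in weight `k` -/
def Inv (N : ℕ) (k : ℤ) (F : ℍ → ℂ) : Prop :=
  ∀ γ ∈ Gamma0 N, F ∣[k] (mapGL ℝ γ) = F

namespace Inv

variable {N : ℕ} {k l : ℤ} {F G : ℍ → ℂ}

theorem mul (hF : Inv N k F) (hG : Inv N l G) : Inv N (k + l) (F * G) := by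
  intro γ hγ
  rw [ModularForm.mul_slash, hF γ hγ, hG γ hγ]
  have := abs_det_SL (toSL γ)
  change |((mapGL ℝ γ : GL (Fin 2) ℝ).det : ℝ)| = 1 at this
  rw [this, one_smul]

theorem one : Inv N 0 (1 : ℍ → ℂ) := fun γ _ => ModularForm.is_invariant_one γ

theorem pow (hF : Inv N k F) (n : ℕ) : Inv N (n * k) (F ^ n) := by
  induction n with
  | zero => simpa using one
  | succ n ih =>
    have := ih.mul hF
    have hw : ((n : ℤ) * k + k) = ((n + 1 : ℕ) : ℤ) * k := by push_cast; ring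
    rw [hw] at this
    simpa [pow_succ] using this

theorem sum {ι : Type*} (s : Finset ι) {f : ι → ℍ → ℂ} (h : ∀ i ∈ s, Inv N k (f i)) :
    Inv N k (∑ i ∈ s, f i) := by
  intro γ hγ
  rw [SlashAction.sum_slash]
  exact Finset.sum_congr rfl fun i hi => h i hi γ hγ

theorem of_eq_weight (h : k = l) (hF : Inv N k F) : Inv N l F := h ▸ hF

end Inv

theorem IsLO.inv {N : ℕ} {k : ℤ} {F : ℍ → ℂ} (h : IsLO k F) : Inv N k F :=
  fun γ _ => h.slash γ

theorem inv_tFun (N : ℕ) [NeZero N] : Inv N 12 (tFun N) := tFun_slash_gamma0 N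

end Fermat.Agent.LibS23

namespace Fermat.Agent.LibS23

open UpperHalfPlane ModularForm CongruenceSubgroup MatrixGroups Filter Matrix.SpecialLinearGroup
open scoped Manifold Topology

/-- scaling a monic polynomial equation -/
theorem poly_scale (x d : ℂ) (μ : ℕ) (c : ℕ → ℂ) :
    (x * d) ^ μ + ∑ j ∈ Finset.range μ, c j * ((x * d) ^ (μ - (j + 1)) * d ^ (j + 1))
      = d ^ μ * (x ^ μ + ∑ j ∈ Finset.range μ, c j * x ^ (μ - (j + 1))) := by
  rw [mul_add, Finset.mul_sum, mul_pow]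
  congr 1
  · ring
  · refine Finset.sum_congr rfl fun j hj => ?_
    have hj' : j < μ := Finset.mem_range.mp hj
    have : d ^ μ = d ^ (μ - (j + 1)) * d ^ (j + 1) := by
      rw [← pow_add]
      congr 1
      omega
    rw [this, mul_pow]
    ring

theorem map_injective_of_ringHom (σ : ℂ →+* ℂ) : Function.Injective (PowerSeries.map σ) := by
  intro a b hab
  ext n
  have := congrArg (PowerSeries.coeff n) hab
  simp only [PowerSeries.coeff_map] at this
  exact σ.injective this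

end Fermat.Agent.LibS23

namespace Fermat.Agent.LibS23

open UpperHalfPlane ModularForm CongruenceSubgroup MatrixGroups Filter Matrix.SpecialLinearGroup
open scoped Manifold Topology

/-- the candidate conjugate function and its properties -/
theorem exists_conj_function (N : ℕ) [NeZero N] (σ : ℂ →+* ℂ) (f : CuspForm (Gamma0 N) 2) :
    ∃ (h D' : ℍ → ℂ) (K : ℤ) (μ : ℕ) (E' : ℕ → ℍ → ℂ),
      MDiff h ∧ IsLO K D' ∧ D' ≠ 0 ∧ Inv N (K + 2) (h * D') ∧ 0 < μ ∧
      (∀ j : ℕ, IsLO (2 * (j : ℤ)) (E' j)) ∧ (∀ j : ℕ, 1 ≤ j → IsZeroAtImInfty (E' j)) ∧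
      (∀ z, h z ^ μ + ∑ j ∈ Finset.range μ,
        ((-1) ^ (j + 1) * E' (j + 1) z) * h z ^ (μ - (j + 1)) = 0) ∧
      qx (h * D') = qx D' * (qx ⇑f).map σ := by
  classical
  obtain ⟨μ, K, D₀, C, w, E, hμ, hD₀, hD₀ne, hC, hwt, hmain, hE, hEz, hvieta⟩ :=
    exists_level_one_data N f
  -- conjugates
  obtain ⟨D', hD', hqD'⟩ := hD₀.conj σ
  choose C' hC' hqC' using fun i => (hC i).conj σ
  choose E' hE' hqE' using fun j => (hE j).conj σ
  have htQ : QExp (tFun N) := QExp.tFun N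
  have hfQ : QExp ⇑f := QExp.of_gamma0_cusp f
  have hmapinj := map_injective_of_ringHom σ
  have hD'ne : D' ≠ 0 := by
    intro h0
    apply hD₀ne
    rw [← qx_eq_zero_iff hD₀.qexp]
    apply hmapinj
    rw [← hqD', h0, qx_zero, map_zero]
  -- G
  set G : ℍ → ℂ := ∑ i, C' i * tFun N ^ (i : ℕ) with hG
  have hGQ : QExp G := QExp.sum _ fun i _ => (hC' i).qexp.mul (htQ.pow _)
  have hqG : qx G = qx D' * (qx ⇑f).map σ := by
    rw [hG, qx_sum _ (fun i _ => (hC' i).qexp.mul (htQ.pow _))]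
    have h1 : ∀ i, qx (C' i * tFun N ^ (i : ℕ))
        = ((qx (C i)) * qx (tFun N) ^ (i : ℕ)).map σ := by
      intro i
      rw [qx_mul (hC' i).qexp (htQ.pow _), qx_pow htQ, hqC' i, map_mul, map_pow, map_qx_tFun]
    simp_rw [h1]
    rw [← map_sum]
    have h2 : ∑ i, qx (C i) * qx (tFun N) ^ (i : ℕ) = qx (D₀ * ⇑f) := by
      rw [hmain, qx_sum _ (fun i _ => (hC i).qexp.mul (htQ.pow _))]
      refine Finset.sum_congr rfl fun i _ => ?_
      rw [qx_mul (hC i).qexp (htQ.pow _), qx_pow htQ]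
    rw [h2, qx_mul hD₀.qexp hfQ, map_mul, hqD']
  -- invariance of G
  have hGinv : Inv N (K + 2) G := by
    refine Inv.sum _ fun i _ => ?_
    have h1 : Inv N (w i + (i : ℕ) * 12) (C' i * tFun N ^ (i : ℕ)) :=
      (hC' i).inv.mul ((inv_tFun N).pow i)
    refine h1.of_eq_weight ?_
    rw [← hwt i]; ring
  -- the equation Ψ = 0 in the ring of q-expandable functions
  let gG : QRing := ⟨G, hGQ⟩
  let dD : QRing := ⟨D', hD'.qexp⟩
  let eE : ℕ → QRing := fun j => ⟨E' j, (hE' j).qexp⟩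
  let fF : QRing := ⟨⇑f, hfQ⟩
  let eE0 : ℕ → QRing := fun j => ⟨E j, (hE j).qexp⟩
  have hvieta' : fF ^ μ + ∑ j ∈ Finset.range μ, (-1) ^ (j + 1) * (eE0 (j + 1) * fF ^ (μ - (j + 1)))
      = 0 := by
    apply Subtype.ext
    simp only [Subring.coe_add, Subring.coe_pow, AddSubmonoidClass.coe_finset_sum,
      Subring.coe_mul, Subring.coe_neg, Subring.coe_one, Subring.coe_zero, fF, eE0]
    exact hvieta
  have hΨ : gG ^ μ + ∑ j ∈ Finset.range μ,
      (-1) ^ (j + 1) * (eE (j + 1) * (gG ^ (μ - (j + 1)) * dD ^ (j + 1))) = 0 := by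
    apply qxHom_injective
    have hv := congrArg (fun p => (PowerSeries.map σ) (qxHom p)) hvieta'
    simp only [map_add, map_pow, map_sum, map_mul, map_neg, map_one, map_zero] at hv ⊢
    have e1 : qxHom gG = qx D' * (qx ⇑f).map σ := hqG
    have e2 : qxHom dD = qx D' := rfl
    have e3 : ∀ j, qxHom (eE j) = (PowerSeries.map σ) (qxHom (eE0 j)) := fun j => hqE' j
    have e4 : qxHom fF = qx ⇑f := rfl
    rw [e1, e2]
    simp only [e3]
    rw [e4] at hv
    have key : (qx D' * (PowerSeries.map σ) (qx ⇑f)) ^ μ + ∑ j ∈ Finset.range μ,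
        (-1) ^ (j + 1) * ((PowerSeries.map σ) (qxHom (eE0 (j + 1))) *
          ((qx D' * (PowerSeries.map σ) (qx ⇑f)) ^ (μ - (j + 1)) * qx D' ^ (j + 1)))
        = qx D' ^ μ * ((PowerSeries.map σ) (qx ⇑f) ^ μ + ∑ j ∈ Finset.range μ,
          (-1) ^ (j + 1) * ((PowerSeries.map σ) (qxHom (eE0 (j + 1))) *
            (PowerSeries.map σ) (qx ⇑f) ^ (μ - (j + 1)))) := by
      rw [mul_add, Finset.mul_sum, mul_pow]
      congr 1
      refine Finset.sum_congr rfl fun j hj => ?_
      have hj' : j < μ := Finset.mem_range.mp hj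
      have : qx D' ^ μ = qx D' ^ (μ - (j + 1)) * qx D' ^ (j + 1) := by
        rw [← pow_add]
        congr 1
        omega
      rw [this, mul_pow]
      ring
    rw [key, hv, mul_zero]
  -- pointwise form
  have hΨpt : ∀ z, G z ^ μ + ∑ j ∈ Finset.range μ,
      ((-1) ^ (j + 1) * E' (j + 1) z) * (G z ^ (μ - (j + 1)) * D' z ^ (j + 1)) = 0 := by
    intro z
    have h1 := congrArg (fun p : QRing => (p : ℍ → ℂ) z) hΨ
    simp only [Subring.coe_add, Subring.coe_pow, AddSubmonoidClass.coe_finset_sum,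
      Subring.coe_mul, Subring.coe_neg, Subring.coe_one, Subring.coe_zero, gG, dD, eE,
      Pi.add_apply, Pi.pow_apply, Finset.sum_apply, Pi.mul_apply, Pi.neg_apply, Pi.one_apply,
      Pi.zero_apply] at h1
    rw [← h1]
    congr 1
    refine Finset.sum_congr rfl fun j _ => ?_
    ring
  -- the bound
  set B : ℍ → ℝ := fun z => max 1 (∑ j ∈ Finset.range μ, ‖(-1 : ℂ) ^ (j + 1) * E' (j + 1) z‖)
    with hB
  have hBcont : Continuous B := by
    refine continuous_const.max (continuous_finset_sum _ fun j _ => ?_)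
    exact (continuous_const.mul (hE' (j + 1)).mdiff.continuous).norm
  have hroot : ∀ z, D' z ≠ 0 → ∀ x : ℂ, G z = x * D' z →
      x ^ μ + ∑ j ∈ Finset.range μ, ((-1) ^ (j + 1) * E' (j + 1) z) * x ^ (μ - (j + 1)) = 0 := by
    intro z hz x hx
    have h1 := hΨpt z
    rw [hx, poly_scale] at h1
    exact (mul_eq_zero.mp h1).resolve_left (pow_ne_zero _ hz)
  have hbound : ∀ z, ‖G z‖ ≤ B z * ‖D' z‖ := by
    intro z
    by_cases hz : D' z = 0
    · have h1 := hΨpt z
      have h2 : ∑ j ∈ Finset.range μ,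
          ((-1) ^ (j + 1) * E' (j + 1) z) * (G z ^ (μ - (j + 1)) * D' z ^ (j + 1)) = 0 := by
        refine Finset.sum_eq_zero fun j _ => ?_
        rw [hz, zero_pow (by omega), mul_zero, mul_zero]
      rw [h2, add_zero] at h1
      have h3 : G z = 0 := by
        exact pow_eq_zero_iff (by omega) |>.mp h1
      rw [h3, hz]
      simp
    · have hx : G z = (G z / D' z) * D' z := by field_simp
      have h1 := root_bound (G z / D' z) μ _ (hroot z hz _ hx)
      calc ‖G z‖ = ‖G z / D' z‖ * ‖D' z‖ := by rw [← norm_mul, ← hx]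
        _ ≤ B z * ‖D' z‖ := mul_le_mul_of_nonneg_right h1 (norm_nonneg _)
  have hGholo : MDiff G := hGQ.2.1
  obtain ⟨h, hh, hGh⟩ := exists_mdiff_eq_mul G D' hGholo hD'.mdiff hD'ne B hBcont hbound
  -- polynomial identity for h
  set Φ : ℍ → ℂ := fun z => h z ^ μ + ∑ j ∈ Finset.range μ,
    ((-1) ^ (j + 1) * E' (j + 1) z) * h z ^ (μ - (j + 1)) with hΦ
  have hΦholo : MDiff Φ := by
    have : Φ = h ^ μ + ∑ j ∈ Finset.range μ,
        ((fun _ => (-1 : ℂ) ^ (j + 1)) * E' (j + 1)) * h ^ (μ - (j + 1)) := by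
      ext z
      simp [hΦ, Finset.sum_apply]
    rw [this]
    refine (hh.pow μ).add (MDifferentiable.sum fun j _ => ?_)
    exact (mdifferentiable_const.mul (hE' (j + 1)).mdiff).mul (hh.pow _)
  have hDΦ : D' * Φ = 0 := by
    ext z
    by_cases hz : D' z = 0
    · simp [hz]
    · have hx : G z = h z * D' z := by rw [hGh]; rfl
      have := hroot z hz (h z) hx
      simp only [Pi.mul_apply, Pi.zero_apply, hΦ]
      rw [this, mul_zero]
  have hΦ0 : Φ = 0 := ((UpperHalfPlane.mul_eq_zero_iff hD'.mdiff hΦholo).mp hDΦ).resolve_left hD'ne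
  -- E' zero at infinity
  have hE'z : ∀ j : ℕ, 1 ≤ j → IsZeroAtImInfty (E' j) := by
    intro j hj
    apply (hE' j).qexp.isZero_of_coeff_zero
    rw [hqE' j, PowerSeries.coeff_map, (hE j).qexp.coeff_zero_of_isZero (hEz j hj), map_zero]
  refine ⟨h, D', K, μ, E', hh, hD', hD'ne, ?_, hμ, hE', hE'z, ?_, ?_⟩
  · rw [← hGh]; exact hGinv
  · intro z
    exact congrFun hΦ0 z
  · rw [← hGh]; exact hqG

end Fermat.Agent.LibS23

namespace Fermat.Agent.LibS23

open UpperHalfPlane ModularForm CongruenceSubgroup MatrixGroups Filter Matrix.SpecialLinearGroup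
open scoped Manifold Topology

/-- **(G)**: the space `S₂(Γ₀(N))` is stable under conjugating `q`-expansions by any ring
endomorphism of `ℂ`. -/
theorem cuspForm_conj (N : ℕ) [NeZero N] (σ : ℂ →+* ℂ) (f : CuspForm (Gamma0 N) 2) :
    ∃ g : CuspForm (Gamma0 N) 2,
      ∀ n, ModularFormClass.qCoeff g n = σ (ModularFormClass.qCoeff f n) := by
  classical
  obtain ⟨h, D', K, μ, E', hh, hD', hD'ne, hinv, hμ, hE', hE'z, hpoly, hq⟩ :=
    exists_conj_function N σ f
  -- invariance of h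
  have hhinv : Inv N 2 h := by
    intro γ hγ
    have h1 : (h * D') ∣[(2 : ℤ) + K] (mapGL ℝ γ) = (h ∣[(2 : ℤ)] (mapGL ℝ γ)) * D' := by
      rw [ModularForm.mul_slash, hD'.slash γ]
      have := abs_det_SL (toSL γ)
      change |((mapGL ℝ γ : GL (Fin 2) ℝ).det : ℝ)| = 1 at this
      rw [this, one_smul]
    have h2 : (h * D') ∣[(2 : ℤ) + K] (mapGL ℝ γ) = h * D' := by
      have := hinv γ hγ
      rwa [add_comm] at this
    have h3 : (h ∣[(2 : ℤ)] (mapGL ℝ γ) - h) * D' = 0 := by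
      rw [sub_mul, ← h1, h2, sub_self]
    have h4 : MDiff (h ∣[(2 : ℤ)] (mapGL ℝ γ) - h) := (hh.slash 2 _).sub hh
    exact sub_eq_zero.mp
      (((UpperHalfPlane.mul_eq_zero_iff h4 hD'.mdiff).mp h3).resolve_right hD'ne)
  -- vanishing at all cusps
  have hzero : ∀ γ : SL(2, ℤ), IsZeroAtImInfty (h ∣[(2 : ℤ)] γ) := by
    intro γ
    -- the polynomial identity for the translate
    have hpt : ∀ z : ℍ, ((h ∣[(2 : ℤ)] γ) z) ^ μ + ∑ j ∈ Finset.range μ,
        ((-1) ^ (j + 1) * E' (j + 1) z) * ((h ∣[(2 : ℤ)] γ) z) ^ (μ - (j + 1)) = 0 := by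
      intro z
      set u : ℂ := denom γ z ^ (-(2 : ℤ)) with hu
      have hx : (h ∣[(2 : ℤ)] γ) z = h (γ • z) * u := by
        rw [ModularForm.SL_slash_apply]
      have hEj : ∀ j : ℕ, E' j z = E' j (γ • z) * u ^ j := by
        intro j
        have h0 : (E' j ∣[2 * (j : ℤ)] γ) z = E' j z := congrFun ((hE' j).slash γ) z
        have h1 := h0
        rw [ModularForm.SL_slash_apply] at h1
        rw [← h1, hu, ← zpow_natCast, ← zpow_mul]
        congr 2
      have h1 := hpoly (γ • z)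
      have h2 := poly_scale (h (γ • z)) u μ (fun j => (-1) ^ (j + 1) * E' (j + 1) (γ • z))
      rw [h1, mul_zero] at h2
      rw [hx, ← h2]
      congr 1
      refine Finset.sum_congr rfl fun j _ => ?_
      rw [hEj (j + 1)]
      ring
    -- coefficients tend to zero
    set s : ℍ → ℝ := fun z => ∑ j ∈ Finset.range μ, ‖(-1 : ℂ) ^ (j + 1) * E' (j + 1) z‖ with hs
    have hs0 : Tendsto s atImInfty (𝓝 0) := by
      have h1 : ∀ j ∈ Finset.range μ,
          Tendsto (fun z => ‖(-1 : ℂ) ^ (j + 1) * E' (j + 1) z‖) atImInfty (𝓝 0) := by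
        intro j _
        have h2 : Tendsto (E' (j + 1)) atImInfty (𝓝 0) := hE'z (j + 1) (by omega)
        have h3 := (h2.const_mul ((-1 : ℂ) ^ (j + 1))).norm
        simpa using h3
      have h4 := tendsto_finset_sum (Finset.range μ) h1
      rw [Finset.sum_const_zero] at h4
      exact h4
    rw [IsZeroAtImInfty, ZeroAtFilter, Metric.tendsto_nhds]
    intro ε hε
    have hδ : 0 < min 1 (ε ^ μ) := lt_min one_pos (pow_pos hε μ)
    filter_upwards [hs0.eventually (gt_mem_nhds hδ)] with z hz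
    have hz1 : s z ≤ 1 := (lt_of_lt_of_le hz (min_le_left _ _)).le
    have hz2 : s z < ε ^ μ := lt_of_lt_of_le hz (min_le_right _ _)
    have h5 := root_small _ μ _ (hpt z) hz1
    rw [dist_zero_right]
    exact lt_of_pow_lt_pow_left₀ μ hε.le (lt_of_le_of_lt h5 hz2)
  -- the cusp form
  let g : CuspForm (Gamma0 N) 2 :=
    { toFun := h
      slash_action_eq' := by
        rintro _ ⟨γ, hγ, rfl⟩
        exact hhinv γ hγ
      holo' := hh
      zero_at_cusps' := by
        intro c hc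
        rw [Subgroup.IsArithmetic.isCusp_iff_isCusp_SL2Z] at hc
        rw [OnePoint.isZeroAt_iff_forall_SL2Z hc]
        intro γ _
        exact hzero γ }
  refine ⟨g, fun n => ?_⟩
  have hgQ : QExp h := QExp.of_gamma0_cusp g
  have h1 : qx h * qx D' = qx D' * (qx ⇑f).map σ := by
    rw [← qx_mul hgQ hD'.qexp]; exact hq
  have hD'q : qx D' ≠ 0 := fun h0 => hD'ne ((qx_eq_zero_iff hD'.qexp).mp h0)
  have h2 : qx h = (qx ⇑f).map σ := by
    rw [mul_comm] at h1
    exact mul_left_cancel₀ hD'q h1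
  change (qx h).coeff n = σ ((qx ⇑f).coeff n)
  rw [h2, PowerSeries.coeff_map]

end Fermat.Agent.LibS23
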