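/-
S23 support library (helper7): Module C.  From Galois conjugation of cusp forms (G), the
descent lemma FixAut and finiteness of the Hecke algebra (S22) to the integral structure of
`S₂(Γ₀(N))`.
-/
import Mathlib
import Fermat.Prelude.Def_CuspForm_IntegralStructure
import Fermat.Prelude.Def_CuspForm_HeckeAlgebra
import Fermat.Prelude.Thm_ModularFormClass_qCoeff_heckeT
import Fermat.Prelude.Thm_ModularFormClass_qCoeff_heckeU
import Fermat.Prelude.Thm_CongruenceSubgroup_one_mem_strictPeriods_Gamma0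

set_option autoImplicit false

noncomputable section

namespace Fermat.Agent.LibS23.Final

open CongruenceSubgroup ModularFormClass UpperHalfPlane

variable {N : ℕ}

theorem qCoeff_add (f g : CuspForm (Gamma0 N) 2) (n : ℕ) :
    qCoeff (f + g : CuspForm (Gamma0 N) 2) n = qCoeff f n + qCoeff g n := by
  unfold qCoeff
  rw [FunLike.coe_add, ModularForm.qExpansion_add one_pos (one_mem_strictPeriods_Gamma0 N) f g,
    map_add]

theorem qCoeff_smul (c : ℂ) (f : CuspForm (Gamma0 N) 2) (n : ℕ) :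
    qCoeff (c • f : CuspForm (Gamma0 N) 2) n = c * qCoeff f n := by
  unfold qCoeff
  rw [FunLike.coe_smul,
    ModularForm.qExpansion_smul one_pos (one_mem_strictPeriods_Gamma0 N) c f]
  simp

theorem qCoeff_zero_index (f : CuspForm (Gamma0 N) 2) : qCoeff f 0 = 0 :=
  CuspFormClass.qExpansion_coeff_zero f one_pos (one_mem_strictPeriods_Gamma0 N)

theorem eq_zero_of_qCoeff (f : CuspForm (Gamma0 N) 2) (h : ∀ n, qCoeff f n = 0) : f = 0 := by
  have hΓ := one_mem_strictPeriods_Gamma0 N
  have : Fact (IsCusp OnePoint.infty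
      (Subgroup.map (Matrix.SpecialLinearGroup.mapGL ℝ) (Gamma0 N))) :=
    ⟨Subgroup.isCusp_of_mem_strictPeriods one_pos hΓ⟩
  have h1 : qExpansion 1 f = 0 := by
    ext n
    rw [map_zero]
    exact h n
  have h2 := (UpperHalfPlane.qExpansion_eq_zero_iff one_pos
    (SlashInvariantFormClass.periodic_comp_ofComplex f hΓ) (ModularFormClass.holo f)
    (ModularFormClass.bdd_at_infty f)).mp h1
  exact DFunLike.coe_injective h2

theorem qCoeff_heckeTLin {p : ℕ} (hp : p.Prime) (hpN : ¬ p ∣ N) (f : CuspForm (Gamma0 N) 2)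
    (n : ℕ) : qCoeff (CuspForm.heckeTLin 2 hp hpN f) n =
      qCoeff f (n * p) + if p ∣ n then (p : ℂ) * qCoeff f (n / p) else 0 := by
  rw [CuspForm.coe_heckeTLin_apply,
    ModularFormClass.qCoeff_heckeT f (one_mem_strictPeriods_Gamma0 N) hp.ne_zero n,
    ModularForm.coeffHeckeT_apply]
  norm_num

theorem qCoeff_heckeULin [NeZero N] {p : ℕ} (hpN : p ∣ N) (hp : p ≠ 0) (f : CuspForm (Gamma0 N) 2)
    (n : ℕ) : qCoeff (CuspForm.heckeULin 2 hpN f) n = qCoeff f (n * p) := by
  rw [CuspForm.coe_heckeULin_apply,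
    ModularFormClass.qCoeff_heckeU f (one_mem_strictPeriods_Gamma0 N) hp n,
    ModularForm.coeffHeckeU_apply]

theorem qCoeff_zsmul (m : ℤ) (f : CuspForm (Gamma0 N) 2) (n : ℕ) :
    qCoeff (m • f : CuspForm (Gamma0 N) 2) n = (m : ℂ) * qCoeff f n := by
  rw [← Int.cast_smul_eq_zsmul ℂ m f, qCoeff_smul]

/-! ### Step 1: duality `a_n(f) = a_1(t_n f)` -/

theorem exists_hecke_qCoeff_one [NeZero N] (n : ℕ) (hn : 0 < n) :
    ∃ t ∈ CuspForm.heckeAlgebra N 2 (∅ : Set ℕ),
      ∀ f : CuspForm (Gamma0 N) 2, qCoeff f n = qCoeff (t f) 1 := by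
  induction n using Nat.strong_induction_on with
  | _ n ih =>
    rcases Nat.eq_or_lt_of_le hn with h1 | h1
    · subst h1
      exact ⟨1, one_mem _, fun f => rfl⟩
    · have hpp : n.minFac.Prime := Nat.minFac_prime (by omega)
      obtain ⟨m, hm⟩ := Nat.minFac_dvd n
      have hm_pos : 0 < m := by
        rcases Nat.eq_zero_or_pos m with h0 | h0
        · rw [h0, mul_zero] at hm; omega
        · exact h0
      have hm_lt : m < n := by
        have h2 := hpp.two_le
        nlinarith
      obtain ⟨tm, htm, htm'⟩ := ih m hm_lt hm_pos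
      have hnm : n = m * n.minFac := by rw [mul_comm]; exact hm
      by_cases hpN : n.minFac ∣ N
      · refine ⟨tm * CuspForm.heckeULin 2 hpN, mul_mem htm
          (CuspForm.heckeULin_mem_heckeAlgebra hpp hpN (Set.notMem_empty _)), fun f => ?_⟩
        rw [Module.End.mul_apply, ← htm', qCoeff_heckeULin hpN hpp.ne_zero, ← hnm]
      · by_cases hpm : n.minFac ∣ m
        · have hq_pos : 0 < m / n.minFac := Nat.div_pos (Nat.le_of_dvd hm_pos hpm) hpp.pos
          have hq_lt : m / n.minFac < n := lt_of_le_of_lt (Nat.div_le_self _ _) hm_lt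
          obtain ⟨tq, htq, htq'⟩ := ih (m / n.minFac) hq_lt hq_pos
          refine ⟨tm * CuspForm.heckeTLin 2 hpp hpN + (-(n.minFac : ℤ)) • tq,
            add_mem (mul_mem htm (CuspForm.heckeTLin_mem_heckeAlgebra hpp hpN
              (Set.notMem_empty _))) (Subalgebra.zsmul_mem _ htq _), fun f => ?_⟩
          rw [LinearMap.add_apply, Module.End.mul_apply, LinearMap.smul_apply, qCoeff_add,
            qCoeff_zsmul, ← htm', ← htq', qCoeff_heckeTLin hpp hpN, if_pos hpm, ← hnm]
          push_cast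
          ring
        · refine ⟨tm * CuspForm.heckeTLin 2 hpp hpN, mul_mem htm
            (CuspForm.heckeTLin_mem_heckeAlgebra hpp hpN (Set.notMem_empty _)), fun f => ?_⟩
          rw [Module.End.mul_apply, ← htm', qCoeff_heckeTLin hpp hpN, if_neg hpm, ← hnm,
            add_zero]

/-! ### Step 2: Hecke operators commute with conjugation of `q`-expansions -/

/-- `g` is the `σ`-conjugate of `f`. -/
def IsConj (σ : ℂ ≃+* ℂ) (f g : CuspForm (Gamma0 N) 2) : Prop :=
  ∀ n, qCoeff g n = σ (qCoeff f n)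

theorem isConj_apply [NeZero N] (σ : ℂ ≃+* ℂ)
    {t : Module.End ℂ (CuspForm (Gamma0 N) 2)}
    (ht : t ∈ CuspForm.heckeAlgebra N 2 (∅ : Set ℕ)) {f g : CuspForm (Gamma0 N) 2}
    (h : IsConj σ f g) : IsConj σ (t f) (t g) := by
  induction ht using Algebra.adjoin_induction generalizing f g with
  | mem t ht =>
    rcases ht with ⟨ℓ, hℓ, hℓN, -, rfl⟩ | ⟨q, hqN, hq, -, rfl⟩
    · intro n
      rw [qCoeff_heckeTLin, qCoeff_heckeTLin, h (n * ℓ), map_add]
      split_ifs
      · rw [h (n / ℓ), map_mul, map_natCast]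
      · rw [map_zero]
    · intro n
      rw [qCoeff_heckeULin hqN hq.ne_zero, qCoeff_heckeULin hqN hq.ne_zero, h (n * q)]
  | algebraMap r =>
    intro n
    rw [Algebra.algebraMap_eq_smul_one, LinearMap.smul_apply, LinearMap.smul_apply,
      Module.End.one_apply, Module.End.one_apply, qCoeff_zsmul, qCoeff_zsmul, h n, map_mul,
      map_intCast]
  | add t t' _ _ iht iht' =>
    intro n
    rw [LinearMap.add_apply, LinearMap.add_apply, qCoeff_add, qCoeff_add, iht h n, iht' h n,
      map_add]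
  | mul t t' _ _ iht iht' => exact iht (iht' h)

/-! ### Step 3: Galois descent -/

/-- Galois descent for subspaces of `ι → ℂ` (minimal support argument): a nonzero subspace
stable under all coordinatewise ring automorphisms contains a nonzero integral vector. -/
theorem exists_int_vector_of_stable {ι : Type} [Fintype ι]
    (hfix : ∀ x : ℂ, (∀ σ : ℂ ≃+* ℂ, σ x = x) → ∃ q : ℚ, (q : ℂ) = x)
    (R : Submodule ℂ (ι → ℂ))
    (hR : ∀ (σ : ℂ ≃+* ℂ) (c : ι → ℂ), c ∈ R → (fun i => σ (c i)) ∈ R)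
    (c : ι → ℂ) (hc : c ∈ R) (hc0 : c ≠ 0) :
    ∃ m : ι → ℤ, m ≠ 0 ∧ (fun i => (m i : ℂ)) ∈ R := by
  classical
  -- strong induction on the size of the support
  induction hk : (Finset.univ.filter fun i => c i ≠ 0).card using Nat.strong_induction_on
    generalizing c with
  | _ k ih =>
    obtain ⟨i₀, hi₀⟩ : ∃ i, c i ≠ 0 := by
      by_contra hcon
      push Not at hcon
      exact hc0 (funext hcon)
    set c' : ι → ℂ := (c i₀)⁻¹ • c with hc'
    have hc'R : c' ∈ R := R.smul_mem _ hc
    have hc'i₀ : c' i₀ = 1 := by simp [hc', hi₀]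
    have hsupp : ∀ i, c' i ≠ 0 ↔ c i ≠ 0 := by
      intro i
      simp [hc', hi₀]
    by_cases hall : ∀ (σ : ℂ ≃+* ℂ) (i : ι), σ (c' i) = c' i
    · -- rational vector
      have hq : ∀ i, ∃ q : ℚ, (q : ℂ) = c' i := fun i => hfix _ fun σ => hall σ i
      choose q hq using hq
      -- common denominator
      set d : ℕ := ∏ i, (q i).den with hd
      have hdpos : 0 < d := Finset.prod_pos fun i _ => (q i).den_pos
      have hint : ∀ i, ∃ z : ℤ, (z : ℚ) = (d : ℚ) * q i := by
        intro i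
        have hdvd : (q i).den ∣ d := Finset.dvd_prod_of_mem _ (Finset.mem_univ i)
        obtain ⟨e, he⟩ := hdvd
        refine ⟨(e : ℤ) * (q i).num, ?_⟩
        rw [he]
        push_cast
        rw [← Rat.mul_den_eq_num (q i)]
        ring
      choose z hz using hint
      refine ⟨z, ?_, ?_⟩
      · intro hz0
        have h1 := hz i₀
        rw [hz0] at h1
        have h2 : (q i₀ : ℂ) = 1 := (hq i₀).trans hc'i₀
        have h3 : q i₀ = 1 := by exact_mod_cast h2
        rw [h3, mul_one, Pi.zero_apply, Int.cast_zero] at h1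
        have h4 : d = 0 := by exact_mod_cast h1.symm
        exact hdpos.ne' h4
      · have : (fun i => (z i : ℂ)) = (d : ℂ) • c' := by
          funext i
          have h1 := hz i
          have h2 : ((z i : ℚ) : ℂ) = ((d : ℚ) * q i : ℚ) := by rw [h1]
          push_cast at h2
          rw [Pi.smul_apply, smul_eq_mul, ← hq i, ← h2]
        rw [this]
        exact R.smul_mem _ hc'R
    · push Not at hall
      obtain ⟨σ, i₁, hi₁⟩ := hall
      set dd : ι → ℂ := (fun i => σ (c' i)) - c' with hdd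
      have hddR : dd ∈ R := R.sub_mem (hR σ c' hc'R) hc'R
      have hdd0 : dd ≠ 0 := by
        intro h0
        have := congrFun h0 i₁
        simp only [hdd, Pi.sub_apply, Pi.zero_apply, sub_eq_zero] at this
        exact hi₁ this
      have hsub : (Finset.univ.filter fun i => dd i ≠ 0) ⊂ (Finset.univ.filter fun i => c i ≠ 0) := by
        rw [Finset.ssubset_iff_of_subset]
        · refine ⟨i₀, by simp [hi₀], ?_⟩
          simp [hdd, hc'i₀]
        · intro i hi
          simp only [Finset.mem_filter, Finset.mem_univ, true_and] at hi ⊢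
          intro hci
          apply hi
          have : c' i = 0 := by
            by_contra h
            exact (hsupp i).mp h hci
          simp [hdd, this]
      exact ih _ (hk ▸ Finset.card_lt_card hsub) dd hddR hdd0 rfl


/-! ### Step 3: a `ℤ`-basis of the Hecke algebra stays `ℂ`-linearly independent -/

/-- The `n`-th `q`-coefficient as a linear form. -/
def qCoeffLin (N : ℕ) (n : ℕ) : CuspForm (Gamma0 N) 2 →ₗ[ℂ] ℂ where
  toFun f := qCoeff f n
  map_add' f g := qCoeff_add f g n
  map_smul' c f := by rw [qCoeff_smul]; rfl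

theorem qCoeffLin_apply (n : ℕ) (f : CuspForm (Gamma0 N) 2) : qCoeffLin N n f = qCoeff f n := rfl

theorem qCoeff_sum_smul_apply {ι : Type} [Fintype ι] (c : ι → ℂ)
    (b : ι → Module.End ℂ (CuspForm (Gamma0 N) 2)) (f : CuspForm (Gamma0 N) 2) (n : ℕ) :
    qCoeff ((∑ i, c i • b i) f) n = ∑ i, c i * qCoeff (b i f) n := by
  rw [← qCoeffLin_apply, LinearMap.sum_apply, map_sum]
  refine Finset.sum_congr rfl fun i _ => ?_
  rw [LinearMap.smul_apply, map_smul, smul_eq_mul, qCoeffLin_apply]

theorem relations_stable [NeZero N]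
    (hconj : ∀ (σ : ℂ ≃+* ℂ) (f : CuspForm (Gamma0 N) 2),
      ∃ g : CuspForm (Gamma0 N) 2, ∀ n, qCoeff g n = σ (qCoeff f n))
    {ι : Type} [Fintype ι] (b : ι → Module.End ℂ (CuspForm (Gamma0 N) 2))
    (hb : ∀ i, b i ∈ CuspForm.heckeAlgebra N 2 (∅ : Set ℕ)) (σ : ℂ ≃+* ℂ) (c : ι → ℂ)
    (hc : ∑ i, c i • b i = 0) : ∑ i, σ (c i) • b i = 0 := by
  refine LinearMap.ext fun g => ?_
  obtain ⟨f, hf⟩ := hconj σ.symm g
  have hfg : IsConj σ f g := fun n => by rw [hf n, RingEquiv.apply_symm_apply]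
  rw [LinearMap.zero_apply]
  refine eq_zero_of_qCoeff _ fun n => ?_
  rw [qCoeff_sum_smul_apply]
  have h1 : ∀ i, σ (c i) * qCoeff (b i g) n = σ (c i * qCoeff (b i f) n) := fun i => by
    rw [isConj_apply σ (hb i) hfg n, map_mul]
  rw [Finset.sum_congr rfl fun i _ => h1 i, ← map_sum, ← qCoeff_sum_smul_apply, hc,
    LinearMap.zero_apply]
  have h0 : qCoeff (0 : CuspForm (Gamma0 N) 2) n = 0 := by
    have := qCoeff_smul (0 : ℂ) (0 : CuspForm (Gamma0 N) 2) n
    rw [zero_smul, zero_mul] at this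
    exact this
  rw [h0, map_zero]

theorem eq_zero_of_sum_smul_basis [NeZero N]
    (hconj : ∀ (σ : ℂ ≃+* ℂ) (f : CuspForm (Gamma0 N) 2),
      ∃ g : CuspForm (Gamma0 N) 2, ∀ n, qCoeff g n = σ (qCoeff f n))
    (hfix : ∀ x : ℂ, (∀ σ : ℂ ≃+* ℂ, σ x = x) → ∃ q : ℚ, (q : ℂ) = x)
    {ι : Type} [Fintype ι] (b : Module.Basis ι ℤ (CuspForm.heckeAlgebra N 2 (∅ : Set ℕ)))
    (c : ι → ℂ)
    (hc : ∑ i, c i • (b i : Module.End ℂ (CuspForm (Gamma0 N) 2)) = 0) : c = 0 := by
  by_contra hc0
  let R : Submodule ℂ (ι → ℂ) := LinearMap.ker (Fintype.linearCombination ℂ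
    (fun i => (b i : Module.End ℂ (CuspForm (Gamma0 N) 2))))
  have hmem : ∀ c : ι → ℂ, c ∈ R ↔
      ∑ i, c i • (b i : Module.End ℂ (CuspForm (Gamma0 N) 2)) = 0 := by
    intro c
    rw [LinearMap.mem_ker, Fintype.linearCombination_apply]
  obtain ⟨m, hm0, hmR⟩ := exists_int_vector_of_stable hfix R
    (fun σ c hc => (hmem _).mpr (relations_stable hconj _ (fun i => (b i).2) σ c ((hmem c).mp hc)))
    c ((hmem c).mpr hc) hc0
  rw [hmem] at hmR
  have h1 : ∑ i, m i • b i = 0 := by
    apply Subtype.ext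
    rw [AddSubmonoidClass.coe_finsetSum, ZeroMemClass.coe_zero, ← hmR]
    refine Finset.sum_congr rfl fun i _ => ?_
    rw [SetLike.val_smul, Int.cast_smul_eq_zsmul]
  have h2 := Fintype.linearIndependent_iff.mp b.linearIndependent m h1
  exact hm0 (funext h2)


/-! ### Step 4: the dual basis -/

theorem qCoeff_one_hecke_expand [NeZero N] {ι : Type} [Fintype ι]
    (b : Module.Basis ι ℤ (CuspForm.heckeAlgebra N 2 (∅ : Set ℕ)))
    (t : CuspForm.heckeAlgebra N 2 (∅ : Set ℕ)) (f : CuspForm (Gamma0 N) 2) :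
    qCoeff ((t : Module.End ℂ (CuspForm (Gamma0 N) 2)) f) 1 =
      ∑ i, (b.repr t i : ℂ) * qCoeff ((b i : Module.End ℂ (CuspForm (Gamma0 N) 2)) f) 1 := by
  have h1 : (t : Module.End ℂ (CuspForm (Gamma0 N) 2)) =
      ∑ i, (b.repr t i : ℂ) • (b i : Module.End ℂ (CuspForm (Gamma0 N) 2)) := by
    conv_lhs => rw [← b.sum_repr t]
    rw [AddSubmonoidClass.coe_finsetSum]
    refine Finset.sum_congr rfl fun i _ => ?_
    rw [SetLike.val_smul, Int.cast_smul_eq_zsmul]
  rw [h1, qCoeff_sum_smul_apply]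

end Fermat.Agent.LibS23.Final

namespace Fermat.Agent.LibS23

open CongruenceSubgroup ModularFormClass UpperHalfPlane Final

/-- Module C: Galois conjugation (G), the descent lemma and finiteness of the Hecke algebra
give the integral structure of `S₂(Γ₀(N))`. -/
theorem hasIntegralStructure_of_conj (N : ℕ) [NeZero N]
    (hconj : ∀ (σ : ℂ ≃+* ℂ) (f : CuspForm (CongruenceSubgroup.Gamma0 N) 2),
      ∃ g : CuspForm (CongruenceSubgroup.Gamma0 N) 2,
        ∀ n, ModularFormClass.qCoeff g n = σ (ModularFormClass.qCoeff f n))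
    (hfix : ∀ x : ℂ, (∀ σ : ℂ ≃+* ℂ, σ x = x) → ∃ q : ℚ, (q : ℂ) = x)
    (hfin : Module.Finite ℤ (CuspForm.heckeAlgebra N 2 ∅)) :
    CuspForm.HasIntegralStructure N 2 := by
  classical
  let b := Module.Free.chooseBasis ℤ (CuspForm.heckeAlgebra N 2 (∅ : Set ℕ))
  -- the evaluation map
  let Φ : CuspForm (Gamma0 N) 2 →ₗ[ℂ]
      (Module.Free.ChooseBasisIndex ℤ (CuspForm.heckeAlgebra N 2 (∅ : Set ℕ)) → ℂ) :=
    LinearMap.pi fun i => (qCoeffLin N 1).comp (b i : Module.End ℂ (CuspForm (Gamma0 N) 2))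
  have hΦ : ∀ f i, Φ f i = qCoeff ((b i : Module.End ℂ (CuspForm (Gamma0 N) 2)) f) 1 :=
    fun f i => rfl
  -- vanishing of all `a_1(b_i f)` kills all `a_1(t f)`, hence `f`
  have hkey : ∀ f : CuspForm (Gamma0 N) 2, Φ f = 0 → f = 0 := by
    intro f hf
    refine eq_zero_of_qCoeff f fun n => ?_
    rcases Nat.eq_zero_or_pos n with rfl | hn
    · exact qCoeff_zero_index f
    · obtain ⟨t, ht, ht'⟩ := exists_hecke_qCoeff_one (N := N) n hn
      rw [ht' f, qCoeff_one_hecke_expand b ⟨t, ht⟩ f]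
      refine Finset.sum_eq_zero fun i _ => ?_
      rw [← hΦ, hf, Pi.zero_apply, mul_zero]
  have hΦinj : Function.Injective Φ := by
    rw [injective_iff_map_eq_zero]
    exact hkey
  have hΦsurj : Function.Surjective Φ := by
    rw [← LinearMap.range_eq_top]
    by_contra hne
    obtain ⟨φ, hφ0, hφ⟩ := Submodule.exists_le_ker_of_lt_top _ (lt_top_iff_ne_top.mpr hne)
    -- the functional `φ` is given by a vector `c`
    have hφc : ∀ v, φ v = ∑ i, v i * φ (Pi.single i 1) := by
      intro v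
      rw [LinearMap.pi_apply_eq_sum_univ φ v]
      refine Finset.sum_congr rfl fun i _ => ?_
      rw [smul_eq_mul]
      congr 2
      funext j
      simp [Pi.single_apply, eq_comm]
    -- `τ = ∑ c_i b_i` kills everything
    have hτ : ∑ i, φ (Pi.single i 1) • (b i : Module.End ℂ (CuspForm (Gamma0 N) 2)) = 0 := by
      refine LinearMap.ext fun f => ?_
      rw [LinearMap.zero_apply]
      refine eq_zero_of_qCoeff _ fun n => ?_
      rcases Nat.eq_zero_or_pos n with rfl | hn
      · exact qCoeff_zero_index _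
      · obtain ⟨t, ht, ht'⟩ := exists_hecke_qCoeff_one (N := N) n hn
        rw [ht']
        -- commute `t` past `τ`
        have hcomm : t ((∑ i, φ (Pi.single i 1) •
            (b i : Module.End ℂ (CuspForm (Gamma0 N) 2))) f) =
            (∑ i, φ (Pi.single i 1) • (b i : Module.End ℂ (CuspForm (Gamma0 N) 2))) (t f) := by
          rw [LinearMap.sum_apply, LinearMap.sum_apply, map_sum]
          refine Finset.sum_congr rfl fun i _ => ?_
          rw [LinearMap.smul_apply, LinearMap.smul_apply, map_smul]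
          congr 1
          have h1 : (⟨t, ht⟩ : CuspForm.heckeAlgebra N 2 (∅ : Set ℕ)) * b i =
              b i * ⟨t, ht⟩ := mul_comm _ _
          have h2 := congrArg (fun x : CuspForm.heckeAlgebra N 2 (∅ : Set ℕ) =>
            (x : Module.End ℂ (CuspForm (Gamma0 N) 2)) f) h1
          exact h2
        rw [hcomm, qCoeff_sum_smul_apply]
        have h3 := hφ (LinearMap.mem_range_self Φ (t f))
        rw [LinearMap.mem_ker, hφc] at h3
        rw [← h3]
        refine Finset.sum_congr rfl fun i _ => ?_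
        rw [hΦ, mul_comm]
    have hc0 := eq_zero_of_sum_smul_basis hconj hfix b _ hτ
    apply hφ0
    refine LinearMap.ext fun v => ?_
    rw [hφc, LinearMap.zero_apply]
    refine Finset.sum_eq_zero fun i _ => ?_
    rw [congrFun hc0 i, Pi.zero_apply, mul_zero]
  -- the dual basis
  choose F hF using fun j => hΦsurj (Pi.single j 1)
  have hint : ∀ j, F j ∈ CuspForm.intLattice N 2 := by
    intro j
    refine Submodule.subset_span fun n => ?_
    rcases Nat.eq_zero_or_pos n with rfl | hn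
    · exact ⟨0, by rw [qCoeff_zero_index, Int.cast_zero]⟩
    · obtain ⟨t, ht, ht'⟩ := exists_hecke_qCoeff_one (N := N) n hn
      refine ⟨b.repr ⟨t, ht⟩ j, ?_⟩
      rw [ht' (F j), qCoeff_one_hecke_expand b ⟨t, ht⟩ (F j)]
      rw [Finset.sum_eq_single j]
      · rw [← hΦ, hF j, Pi.single_eq_same, mul_one]
      · intro i _ hij
        rw [← hΦ, hF j, Pi.single_eq_of_ne hij, mul_zero]
      · intro h
        exact absurd (Finset.mem_univ j) h
  rw [CuspForm.HasIntegralStructure, eq_top_iff]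
  intro f _
  have hf : f = ∑ j, Φ f j • F j := by
    apply hΦinj
    rw [map_sum]
    funext i
    rw [Finset.sum_apply, Finset.sum_eq_single i]
    · rw [map_smul, hF i, Pi.smul_apply, Pi.single_eq_same, smul_eq_mul, mul_one]
    · intro j _ hji
      rw [map_smul, hF j, Pi.smul_apply, Pi.single_eq_of_ne hji.symm, smul_zero]
    · intro h
      exact absurd (Finset.mem_univ i) h
  rw [hf]
  exact Submodule.sum_mem _ fun j _ => Submodule.smul_mem _ _ (Submodule.subset_span (hint j))

end Fermat.Agent.LibS23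

end
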