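/-
S23 support library (helper7): a complex number fixed by every ring automorphism of `ℂ` is
rational.  Pure Mathlib.
-/
import Mathlib

set_option autoImplicit false

noncomputable section

namespace Fermat.Agent.S23Lib

/-- Every ring automorphism of a field `K` mapping to `ℂ` extends to a ring automorphism
of `ℂ`. -/
theorem exists_ringEquiv_extending {K : Type} [Field K] [Algebra K ℂ] (σ : K ≃+* K) :
    ∃ τ : ℂ ≃+* ℂ, ∀ k : K, τ (algebraMap K ℂ k) = algebraMap K ℂ (σ k) := by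
  obtain ⟨s, hs⟩ := exists_isTranscendenceBasis K (A := ℂ)
  let _ := IsAlgClosed.isAlgClosure_of_transcendence_basis ((↑) : s → ℂ) hs
  let e : Algebra.adjoin K (Set.range ((↑) : s → ℂ)) ≃+* Algebra.adjoin K (Set.range ((↑) : s → ℂ)) :=
    hs.1.aevalEquiv.symm.toRingEquiv.trans
      ((MvPolynomial.mapEquiv s σ).trans hs.1.aevalEquiv.toRingEquiv)
  refine ⟨IsAlgClosure.equivOfEquiv ℂ ℂ e, fun k => ?_⟩
  have h1 : ∀ k : K, algebraMap K ℂ k = algebraMap (Algebra.adjoin K (Set.range ((↑) : s → ℂ))) ℂ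
      (algebraMap K (Algebra.adjoin K (Set.range ((↑) : s → ℂ))) k) := fun k => rfl
  rw [h1, IsAlgClosure.equivOfEquiv_algebraMap, h1]
  congr 1
  simp only [e, RingEquiv.trans_apply, AlgEquiv.coe_ringEquiv]
  have h2 : hs.1.aevalEquiv.symm (algebraMap K (Algebra.adjoin K (Set.range ((↑) : s → ℂ))) k) =
      MvPolynomial.C k := by
    rw [← MvPolynomial.algebraMap_eq]
    exact AlgEquiv.commutes _ _
  have h3 : hs.1.aevalEquiv (MvPolynomial.C (σ k)) =
      algebraMap K (Algebra.adjoin K (Set.range ((↑) : s → ℂ))) (σ k) := by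
    rw [← MvPolynomial.algebraMap_eq]
    exact AlgEquiv.commutes _ _
  erw [h2]
  rw [MvPolynomial.mapEquiv_apply, MvPolynomial.map_C]
  exact h3

/-- An algebraic irrational complex number is moved by some ring automorphism of `ℂ`. -/
theorem exists_ringEquiv_ne_of_isAlgebraic (x : ℂ) (hx : IsAlgebraic ℚ x)
    (hq : x ∉ Set.range (algebraMap ℚ ℂ)) : ∃ τ : ℂ ≃+* ℂ, τ x ≠ x := by
  have hcl : IsAlgClosure ℚ (algebraicClosure ℚ ℂ) := algebraicClosure.isAlgClosure ℚ ℂ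
  have : IsAlgClosed (algebraicClosure ℚ ℂ) := hcl.isAlgClosed
  have : Algebra.IsAlgebraic ℚ (algebraicClosure ℚ ℂ) := hcl.isAlgebraic
  have : Normal ℚ (algebraicClosure ℚ ℂ) := IsAlgClosure.normal _ _
  let x' : algebraicClosure ℚ ℂ := ⟨x, mem_algebraicClosure_iff.mpr hx⟩
  have hsep : IsSeparable ℚ x' := Algebra.IsSeparable.isSeparable ℚ x'
  have hsplit : ((minpoly ℚ x').map (algebraMap ℚ (algebraicClosure ℚ ℂ))).Splits :=
    IsAlgClosed.splits _
  have hnot : x' ∉ (⊥ : Subalgebra ℚ (algebraicClosure ℚ ℂ)) := by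
    rw [Algebra.mem_bot]
    rintro ⟨q, hq'⟩
    exact hq ⟨q, congrArg Subtype.val hq'⟩
  obtain ⟨y', hne, hconj⟩ := (notMem_iff_exists_ne_and_isConjRoot hsep hsplit).mp hnot
  obtain ⟨σ, hσ⟩ := hconj.exists_algEquiv
  obtain ⟨τ, hτ⟩ := exists_ringEquiv_extending (K := algebraicClosure ℚ ℂ) σ.toRingEquiv
  refine ⟨τ, fun h => hne ?_⟩
  have h1 : τ (algebraMap (algebraicClosure ℚ ℂ) ℂ y') = algebraMap (algebraicClosure ℚ ℂ) ℂ x' := by
    rw [hτ]
    exact congrArg _ hσ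
  have h2 : τ (algebraMap (algebraicClosure ℚ ℂ) ℂ x') = algebraMap (algebraicClosure ℚ ℂ) ℂ x' := h
  have h3 := τ.injective (h1.trans h2.symm)
  exact (Subtype.ext h3).symm

/-- A transcendental complex number is moved by some ring automorphism of `ℂ`. -/
theorem exists_ringEquiv_ne_of_transcendental (x : ℂ) (hx : Transcendental ℚ x) :
    ∃ τ : ℂ ≃+* ℂ, τ x ≠ x := by
  have hind : AlgebraicIndepOn ℚ id ({x} : Set ℂ) :=
    (algebraicIndependent_singleton_iff (⟨x, rfl⟩ : ({x} : Set ℂ))).mpr hx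
  obtain ⟨t, hxt, ht⟩ := exists_isTranscendenceBasis_superset hind
  let _ := IsAlgClosed.isAlgClosure_of_transcendence_basis ((↑) : t → ℂ) ht
  let x₀ : t := ⟨x, hxt rfl⟩
  let T : MvPolynomial t ℚ ≃ₐ[ℚ] MvPolynomial t ℚ :=
    AlgEquiv.ofAlgHom (MvPolynomial.aeval fun i => -MvPolynomial.X i)
      (MvPolynomial.aeval fun i => -MvPolynomial.X i) (by ext i; simp) (by ext i; simp)
  let e : Algebra.adjoin ℚ (Set.range ((↑) : t → ℂ)) ≃+* Algebra.adjoin ℚ (Set.range ((↑) : t → ℂ)) :=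
    ht.1.aevalEquiv.symm.toRingEquiv.trans (T.toRingEquiv.trans ht.1.aevalEquiv.toRingEquiv)
  refine ⟨IsAlgClosure.equivOfEquiv ℂ ℂ e, ?_⟩
  have hxS : x = algebraMap (Algebra.adjoin ℚ (Set.range ((↑) : t → ℂ))) ℂ
      (ht.1.aevalEquiv (MvPolynomial.X x₀)) := by
    rw [AlgebraicIndependent.algebraMap_aevalEquiv, MvPolynomial.aeval_X]
  have he : e (ht.1.aevalEquiv (MvPolynomial.X x₀)) = ht.1.aevalEquiv (-MvPolynomial.X x₀) := by
    simp only [e, RingEquiv.trans_apply, AlgEquiv.coe_ringEquiv]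
    erw [AlgEquiv.symm_apply_apply]
    congr 1
    simp [T]
  have hval : IsAlgClosure.equivOfEquiv ℂ ℂ e x = -x := by
    conv_lhs => rw [hxS]
    rw [IsAlgClosure.equivOfEquiv_algebraMap, he, AlgebraicIndependent.algebraMap_aevalEquiv,
      map_neg, MvPolynomial.aeval_X]
  rw [hval]
  intro h
  have h0 : x = 0 := by
    have : (2 : ℂ) * x = 0 := by linear_combination -h
    simpa using this
  exact hx (h0 ▸ isAlgebraic_zero)

/-- A complex number fixed by every ring automorphism of `ℂ` is rational. -/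
theorem exists_rat_of_forall_ringEquiv_fixed (x : ℂ) (h : ∀ σ : ℂ ≃+* ℂ, σ x = x) :
    ∃ q : ℚ, (q : ℂ) = x := by
  by_contra hq
  have hq' : x ∉ Set.range (algebraMap ℚ ℂ) := fun ⟨q, hq''⟩ => hq ⟨q, hq''⟩
  by_cases hx : IsAlgebraic ℚ x
  · obtain ⟨τ, hτ⟩ := exists_ringEquiv_ne_of_isAlgebraic x hx hq'
    exact hτ (h τ)
  · obtain ⟨τ, hτ⟩ := exists_ringEquiv_ne_of_transcendental x hx
    exact hτ (h τ)

end Fermat.Agent.S23Lib

end
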