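import Mathlib
import Fermat.Prelude.Def_FLTPrelim_Modularity
import Fermat.Prelude.Thm_UpperHalfPlane_eq_of_forall_qCoeff_eq
import Fermat.Prelude.Thm_UpperHalfPlane_qExpansion_prod

set_option autoImplicit false

namespace Fermat.Agent.LibS23

open UpperHalfPlane ModularForm CongruenceSubgroup MatrixGroups Filter
open scoped Manifold Topology

/-- The class of functions on the upper half plane having a `q`-expansion of width one:
`1`-periodic, holomorphic and bounded at `i∞`. -/
def QExp (F : ℍ → ℂ) : Prop :=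
  Function.Periodic (F ∘ ofComplex) 1 ∧ MDiff F ∧ IsBoundedAtImInfty F

namespace QExp

variable {F G : ℍ → ℂ}

theorem analyticAt (hF : QExp F) : AnalyticAt ℂ (cuspFunction 1 F) 0 :=
  analyticAt_cuspFunction_zero one_pos hF.1 hF.2.1 hF.2.2

theorem add (hF : QExp F) (hG : QExp G) : QExp (F + G) := by
  refine ⟨?_, hF.2.1.add hG.2.1, hF.2.2.add hG.2.2⟩
  intro w
  have h1 := hF.1 w
  have h2 := hG.1 w
  simp only [Function.comp_apply, Pi.add_apply] at h1 h2 ⊢
  rw [h1, h2]

theorem mul (hF : QExp F) (hG : QExp G) : QExp (F * G) := by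
  refine ⟨?_, hF.2.1.mul hG.2.1, hF.2.2.mul hG.2.2⟩
  intro w
  have h1 := hF.1 w
  have h2 := hG.1 w
  simp only [Function.comp_apply, Pi.mul_apply] at h1 h2 ⊢
  rw [h1, h2]

theorem neg (hF : QExp F) : QExp (-F) := by
  refine ⟨?_, hF.2.1.neg, hF.2.2.neg_left⟩
  intro w
  have h1 := hF.1 w
  simp only [Function.comp_apply, Pi.neg_apply] at h1 ⊢
  rw [h1]

theorem sub (hF : QExp F) (hG : QExp G) : QExp (F - G) := by
  rw [sub_eq_add_neg]
  exact hF.add hG.neg

theorem const (c : ℂ) : QExp (fun _ => c) := by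
  refine ⟨fun w => rfl, mdifferentiable_const, ?_⟩
  exact Filter.const_boundedAtFilter _ c

theorem one : QExp (1 : ℍ → ℂ) := const 1

theorem zero : QExp (0 : ℍ → ℂ) := const 0

theorem smul (c : ℂ) (hF : QExp F) : QExp (c • F) := by
  have : c • F = (fun _ => c) * F := by
    ext z; simp
  rw [this]
  exact (const c).mul hF

theorem pow (hF : QExp F) (n : ℕ) : QExp (F ^ n) := by
  induction n with
  | zero => simpa using one
  | succ n ih => rw [pow_succ]; exact ih.mul hF

theorem sum {ι : Type*} (s : Finset ι) {f : ι → ℍ → ℂ} (h : ∀ i ∈ s, QExp (f i)) :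
    QExp (∑ i ∈ s, f i) := by
  classical
  induction s using Finset.induction_on with
  | empty => simpa using zero
  | insert a s ha ih =>
    rw [Finset.sum_insert ha]
    exact (h a (Finset.mem_insert_self a s)).add
      (ih fun i hi => h i (Finset.mem_insert_of_mem hi))

theorem prod {ι : Type*} (s : Finset ι) {f : ι → ℍ → ℂ} (h : ∀ i ∈ s, QExp (f i)) :
    QExp (∏ i ∈ s, f i) := by
  classical
  induction s using Finset.induction_on with
  | empty => simpa using one
  | insert a s ha ih =>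
    rw [Finset.prod_insert ha]
    exact (h a (Finset.mem_insert_self a s)).mul
      (ih fun i hi => h i (Finset.mem_insert_of_mem hi))

end QExp

/-- the `q`-expansion (width one) as a map on functions -/
noncomputable abbrev qx (F : ℍ → ℂ) : PowerSeries ℂ := qExpansion 1 F

theorem qx_add {F G : ℍ → ℂ} (hF : QExp F) (hG : QExp G) : qx (F + G) = qx F + qx G :=
  qExpansion_add hF.analyticAt hG.analyticAt

theorem qx_mul {F G : ℍ → ℂ} (hF : QExp F) (hG : QExp G) : qx (F * G) = qx F * qx G :=
  qExpansion_mul hF.analyticAt hG.analyticAt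

theorem qx_neg {F : ℍ → ℂ} (hF : QExp F) : qx (-F) = -qx F :=
  qExpansion_neg hF.analyticAt

theorem qx_sub {F G : ℍ → ℂ} (hF : QExp F) (hG : QExp G) : qx (F - G) = qx F - qx G :=
  qExpansion_sub hF.analyticAt hG.analyticAt

theorem qx_smul {F : ℍ → ℂ} (c : ℂ) (hF : QExp F) : qx (c • F) = c • qx F :=
  qExpansion_smul hF.analyticAt c

theorem qx_zero : qx (0 : ℍ → ℂ) = 0 := qExpansion_zero 1

theorem qx_one : qx (1 : ℍ → ℂ) = 1 := qExpansion_one 1

theorem qx_pow {F : ℍ → ℂ} (hF : QExp F) (n : ℕ) : qx (F ^ n) = qx F ^ n := by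
  induction n with
  | zero => simpa using qx_one
  | succ n ih => rw [pow_succ, pow_succ, qx_mul (hF.pow n) hF, ih]

theorem qx_sum {ι : Type*} (s : Finset ι) {f : ι → ℍ → ℂ} (h : ∀ i ∈ s, QExp (f i)) :
    qx (∑ i ∈ s, f i) = ∑ i ∈ s, qx (f i) := by
  classical
  induction s using Finset.induction_on with
  | empty => simpa using qx_zero
  | insert a s ha ih =>
    rw [Finset.sum_insert ha, Finset.sum_insert ha,
      qx_add (h a (Finset.mem_insert_self a s))
        (QExp.sum s fun i hi => h i (Finset.mem_insert_of_mem hi)),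
      ih fun i hi => h i (Finset.mem_insert_of_mem hi)]

theorem qx_eq_zero_iff {F : ℍ → ℂ} (hF : QExp F) : qx F = 0 ↔ F = 0 :=
  qExpansion_eq_zero_iff one_pos hF.1 hF.2.1 hF.2.2

theorem qx_injective {F G : ℍ → ℂ} (hF : QExp F) (hG : QExp G) (h : qx F = qx G) : F = G := by
  have := (qx_eq_zero_iff (hF.sub hG)).mp (by rw [qx_sub hF hG, h, sub_self])
  exact sub_eq_zero.mp this

end Fermat.Agent.LibS23
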