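import Fermat.Agent.Lib.S23.LO

set_option autoImplicit false

namespace Fermat.Agent.LibS23

open UpperHalfPlane ModularForm CongruenceSubgroup MatrixGroups Filter Matrix.SpecialLinearGroup
open scoped Manifold Topology

/-- constructor for level-one forms from functions -/
theorem IsLO.mk' {k : ℤ} {F : ℍ → ℂ} (hinv : ∀ γ : SL(2, ℤ), F ∣[k] (mapGL ℝ γ) = F)
    (hholo : MDiff F) (hbdd : IsBoundedAtImInfty F) : IsLO k F := by
  refine ⟨{ toFun := F
            slash_action_eq' := ?_
            holo' := hholo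
            bdd_at_cusps' := ?_ }, rfl⟩
  · rintro _ ⟨γ, rfl⟩
    exact hinv γ
  · intro c hc
    rw [OnePoint.isBoundedAt_iff_forall_SL2Z hc]
    intro γ _
    have : F ∣[k] γ = F := hinv γ
    rw [this]
    exact hbdd

theorem isBoundedAtImInfty_sum {ι : Type} (s : Finset ι) {f : ι → ℍ → ℂ}
    (h : ∀ i ∈ s, IsBoundedAtImInfty (f i)) : IsBoundedAtImInfty (∑ i ∈ s, f i) := by
  classical
  induction s using Finset.induction_on with
  | empty =>
    simp only [Finset.sum_empty]
    exact Filter.const_boundedAtFilter _ (0 : ℂ)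
  | insert a s ha ih =>
    rw [Finset.sum_insert ha]
    exact (h a (Finset.mem_insert_self a s)).add
      (ih fun i hi => h i (Finset.mem_insert_of_mem hi))

theorem isBoundedAtImInfty_prod {ι : Type} (s : Finset ι) {f : ι → ℍ → ℂ}
    (h : ∀ i ∈ s, IsBoundedAtImInfty (f i)) : IsBoundedAtImInfty (∏ i ∈ s, f i) := by
  classical
  induction s using Finset.induction_on with
  | empty =>
    simp only [Finset.prod_empty]
    exact Filter.const_boundedAtFilter _ (1 : ℂ)
  | insert a s ha ih =>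
    rw [Finset.prod_insert ha]
    exact (h a (Finset.mem_insert_self a s)).mul
      (ih fun i hi => h i (Finset.mem_insert_of_mem hi))

section fam

variable {ι : Type} [Fintype ι] [MulAction ↥(𝒮ℒ) ι]

/-- A family of functions permuted by the slash action of `SL₂(ℤ)`. -/
structure Fam (k : ℤ) (a : ι → ℍ → ℂ) : Prop where
  slash : ∀ (h : ↥(𝒮ℒ)) (q : ι), a q ∣[k] (h : GL (Fin 2) ℝ) = a (h⁻¹ • q)
  holo : ∀ q, MDiff (a q)
  bdd : ∀ q, IsBoundedAtImInfty (a q)

/-- the element of `𝒮ℒ` attached to `γ : SL(2, ℤ)` -/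
def toSL (γ : SL(2, ℤ)) : ↥(𝒮ℒ) := ⟨mapGL ℝ γ, ⟨γ, rfl⟩⟩

theorem abs_det_SL (h : ↥(𝒮ℒ)) : |((h : GL (Fin 2) ℝ).det : ℝ)| = 1 := by
  obtain ⟨_, ⟨γ, rfl⟩⟩ := h
  simp

namespace Fam

variable {k l : ℤ} {a b : ι → ℍ → ℂ}

theorem mul (ha : Fam k a) (hb : Fam l b) : Fam (k + l) (fun q => a q * b q) where
  slash h q := by
    rw [ModularForm.mul_slash, ha.slash, hb.slash, abs_det_SL, one_smul]
  holo q := (ha.holo q).mul (hb.holo q)
  bdd q := (ha.bdd q).mul (hb.bdd q)

theorem one : Fam (ι := ι) 0 (fun _ => (1 : ℍ → ℂ)) where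
  slash h q := by
    obtain ⟨_, ⟨γ, rfl⟩⟩ := h
    exact ModularForm.is_invariant_one γ
  holo q := mdifferentiable_const
  bdd q := Filter.const_boundedAtFilter _ 1

theorem pow (ha : Fam k a) (n : ℕ) : Fam (n * k) (fun q => a q ^ n) := by
  induction n with
  | zero => simpa using one
  | succ n ih =>
    have := ih.mul ha
    have hw : ((n : ℤ) * k + k) = ((n + 1 : ℕ) : ℤ) * k := by push_cast; ring
    rw [hw] at this
    simpa [pow_succ] using this

/-- the trace of a family is a level-one form -/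
theorem trace (ha : Fam k a) : IsLO k (∑ q, a q) := by
  refine IsLO.mk' (fun γ => ?_) (MDifferentiable.sum fun q _ => ha.holo q) ?_
  · rw [SlashAction.sum_slash]
    have h1 : ∀ q, a q ∣[k] (mapGL ℝ γ) = a ((toSL γ)⁻¹ • q) := fun q => ha.slash (toSL γ) q
    simp_rw [h1]
    exact Equiv.sum_comp (MulAction.toPerm ((toSL γ)⁻¹)) a
  · exact isBoundedAtImInfty_sum _ fun q _ => ha.bdd q

end Fam

end fam

end Fermat.Agent.LibS23

namespace Fermat.Agent.LibS23

open UpperHalfPlane ModularForm CongruenceSubgroup MatrixGroups Filter Matrix.SpecialLinearGroup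
open scoped Manifold Topology

section esym

variable {ι : Type} [Fintype ι]

/-- elementary symmetric functions of a family (in the ring of functions) -/
noncomputable def esym (a : ι → ℍ → ℂ) (j : ℕ) : ℍ → ℂ := (Finset.univ.val.map a).esymm j

theorem esym_eq (a : ι → ℍ → ℂ) (j : ℕ) :
    esym a j = ∑ t ∈ Finset.powersetCard j Finset.univ, ∏ q ∈ t, a q :=
  Finset.esymm_map_val a _ j

theorem esym_zero (a : ι → ℍ → ℂ) : esym a 0 = 1 := by
  simp [esym, Multiset.esymm]

/-- Vieta: each member of the family is a root of the monic polynomial with coefficients `± esym`. -/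
theorem esym_vieta (a : ι → ℍ → ℂ) (q₀ : ι) :
    ∑ j ∈ Finset.range (Fintype.card ι + 1),
      (-1) ^ j * (esym a j * a q₀ ^ (Fintype.card ι - j)) = 0 := by
  have h := Multiset.prod_X_sub_X_eq_sum_esymm (Finset.univ.val.map a)
  have h2 := congrArg (Polynomial.eval (a q₀)) h
  rw [Polynomial.eval_multiset_prod] at h2
  have hcard : Multiset.card (Finset.univ.val.map a) = Fintype.card ι := by
    simp [Finset.card_univ]
  rw [hcard] at h2
  have hz : (Multiset.map (Polynomial.eval (a q₀))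
      (Multiset.map (fun t => Polynomial.X - Polynomial.C t) (Finset.univ.val.map a))).prod = 0 := by
    apply Multiset.prod_eq_zero
    rw [Multiset.mem_map]
    refine ⟨Polynomial.X - Polynomial.C (a q₀), ?_, by simp⟩
    rw [Multiset.mem_map]
    exact ⟨a q₀, Multiset.mem_map.mpr ⟨q₀, Finset.mem_univ_val q₀, rfl⟩, rfl⟩
  rw [hz] at h2
  rw [h2, Polynomial.eval_finset_sum]
  refine Finset.sum_congr rfl fun j _ => ?_
  simp [esym]

variable [MulAction ↥(𝒮ℒ) ι] {k : ℤ} {a : ι → ℍ → ℂ}

theorem Fam.isLO_esym (ha : Fam k a) (j : ℕ) : IsLO (k * j) (esym a j) := by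
  classical
  rw [esym_eq]
  refine IsLO.mk' (fun γ => ?_) ?_ ?_
  · rw [SlashAction.sum_slash]
    have h1 : ∀ t ∈ Finset.powersetCard j (Finset.univ : Finset ι),
        (∏ q ∈ t, a q) ∣[k * (j : ℤ)] (mapGL ℝ γ)
          = ∏ q ∈ t.map (MulAction.toPerm ((toSL γ)⁻¹)).toEmbedding, a q := by
      intro t ht
      have hc : t.card = j := (Finset.mem_powersetCard.mp ht).2
      rw [← hc, ModularForm.prod_slash, Finset.prod_map]
      have hdet : |((mapGL ℝ γ : GL (Fin 2) ℝ).det : ℝ)| = 1 := abs_det_SL (toSL γ)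
      simp only [Matrix.GeneralLinearGroup.val_det_apply] at hdet ⊢
      rw [hdet, one_zpow, one_smul]
      refine Finset.prod_congr rfl fun q _ => ?_
      exact ha.slash (toSL γ) q
    rw [Finset.sum_congr rfl h1]
    refine (Finset.sum_equiv (MulAction.toPerm ((toSL γ)⁻¹)).finsetCongr ?_ ?_)
    · intro t
      simp [Finset.mem_powersetCard]
    · intro t _
      rfl
  · refine MDifferentiable.sum fun t _ => ?_
    exact MDifferentiable.prod fun q _ => ha.holo q
  · exact isBoundedAtImInfty_sum _ fun t _ => isBoundedAtImInfty_prod _ fun q _ => ha.bdd q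

theorem Fam.esym_isZeroAtImInfty (hz : ∀ q, IsZeroAtImInfty (a q)) {j : ℕ} (hj : 1 ≤ j) :
    IsZeroAtImInfty (esym a j) := by
  classical
  rw [esym_eq]
  have h1 : ∀ t ∈ Finset.powersetCard j (Finset.univ : Finset ι),
      Tendsto (fun z => ∏ q ∈ t, a q z) atImInfty (𝓝 (∏ q ∈ t, (0 : ℂ))) := by
    intro t _
    exact tendsto_finset_prod _ fun q _ => hz q
  have h2 := tendsto_finset_sum _ h1
  have h3 : (∑ t ∈ Finset.powersetCard j (Finset.univ : Finset ι), ∏ q ∈ t, (0 : ℂ)) = 0 := by
    refine Finset.sum_eq_zero fun t ht => ?_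
    have hc : t.card = j := (Finset.mem_powersetCard.mp ht).2
    rw [Finset.prod_const, hc]
    exact zero_pow (by omega)
  rw [h3] at h2
  have h4 : (∑ t ∈ Finset.powersetCard j (Finset.univ : Finset ι), ∏ q ∈ t, a q)
      = fun z => ∑ t ∈ Finset.powersetCard j (Finset.univ : Finset ι), ∏ q ∈ t, a q z := by
    ext z
    simp [Finset.sum_apply, Finset.prod_apply]
  rw [h4]
  exact h2

end esym

end Fermat.Agent.LibS23
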