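import Fermat.Agent.Lib.S23.LevelOne

set_option autoImplicit false

namespace Fermat.Agent.LibS23

open UpperHalfPlane ModularForm CongruenceSubgroup MatrixGroups Filter Matrix.SpecialLinearGroup
open scoped Manifold Topology

/-- `F` is (the underlying function of) a level-one modular form of weight `k`. -/
def IsLO (k : ℤ) (F : ℍ → ℂ) : Prop := ∃ G : ModularForm 𝒮ℒ k, ⇑G = F

namespace IsLO

variable {k l : ℤ} {F G : ℍ → ℂ}

theorem qexp (h : IsLO k F) : QExp F := by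
  obtain ⟨f, rfl⟩ := h
  exact QExp.of_levelOne f

theorem mdiff (h : IsLO k F) : MDiff F := h.qexp.2.1

theorem zero : IsLO k (0 : ℍ → ℂ) := ⟨0, rfl⟩

theorem add (hF : IsLO k F) (hG : IsLO k G) : IsLO k (F + G) := by
  obtain ⟨f, rfl⟩ := hF
  obtain ⟨g, rfl⟩ := hG
  exact ⟨f + g, rfl⟩

theorem neg (hF : IsLO k F) : IsLO k (-F) := by
  obtain ⟨f, rfl⟩ := hF
  exact ⟨-f, rfl⟩

theorem smul (c : ℂ) (hF : IsLO k F) : IsLO k (c • F) := by
  obtain ⟨f, rfl⟩ := hF
  exact ⟨c • f, rfl⟩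

theorem mul (hF : IsLO k F) (hG : IsLO l G) : IsLO (k + l) (F * G) := by
  obtain ⟨f, rfl⟩ := hF
  obtain ⟨g, rfl⟩ := hG
  exact ⟨f.mul g, rfl⟩

theorem one : IsLO 0 (1 : ℍ → ℂ) := ⟨1, ModularForm.one_coe_eq_one⟩

theorem of_eq_weight (h : k = l) (hF : IsLO k F) : IsLO l F := h ▸ hF

theorem sum {ι : Type*} (s : Finset ι) {f : ι → ℍ → ℂ} (h : ∀ i ∈ s, IsLO k (f i)) :
    IsLO k (∑ i ∈ s, f i) := by
  classical
  induction s using Finset.induction_on with
  | empty => simpa using zero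
  | insert a s ha ih =>
    rw [Finset.sum_insert ha]
    exact (h a (Finset.mem_insert_self a s)).add
      (ih fun i hi => h i (Finset.mem_insert_of_mem hi))

theorem prod {ι : Type*} (s : Finset ι) (w : ι → ℤ) {f : ι → ℍ → ℂ}
    (h : ∀ i ∈ s, IsLO (w i) (f i)) : IsLO (∑ i ∈ s, w i) (∏ i ∈ s, f i) := by
  classical
  induction s using Finset.induction_on with
  | empty => simpa using one
  | insert a s ha ih =>
    rw [Finset.prod_insert ha, Finset.sum_insert ha]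
    exact (h a (Finset.mem_insert_self a s)).mul
      (ih fun i hi => h i (Finset.mem_insert_of_mem hi))

theorem slash (h : IsLO k F) (γ : SL(2, ℤ)) : F ∣[k] (mapGL ℝ γ) = F := by
  obtain ⟨f, rfl⟩ := h
  exact SlashInvariantFormClass.slash_action_eq f (mapGL ℝ γ) ⟨γ, rfl⟩

theorem conj (σ : ℂ →+* ℂ) (h : IsLO k F) : ∃ F' : ℍ → ℂ, IsLO k F' ∧ qx F' = (qx F).map σ := by
  obtain ⟨f, rfl⟩ := h
  obtain ⟨g, hg⟩ := levelOne_conj σ k f
  exact ⟨⇑g, ⟨g, rfl⟩, hg⟩

/-- the determinant of a matrix of level-one forms with row/column weights -/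
theorem det {n : ℕ} (r c : Fin n → ℤ) (A : Matrix (Fin n) (Fin n) (ℍ → ℂ))
    (h : ∀ i j, IsLO (r i + c j) (A i j)) : IsLO (∑ i, r i + ∑ j, c j) A.det := by
  rw [Matrix.det_apply]
  refine IsLO.sum _ fun π _ => ?_
  have hprod : IsLO (∑ i, (r (π i) + c i)) (∏ i, A (π i) i) :=
    IsLO.prod Finset.univ (fun i => r (π i) + c i) fun i _ => h (π i) i
  have hw : ∑ i, (r (π i) + c i) = ∑ i, r i + ∑ j, c j := by
    rw [Finset.sum_add_distrib, Equiv.sum_comp π r]
  rw [hw] at hprod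
  rcases Int.units_eq_one_or (Equiv.Perm.sign π) with h1 | h1
  · rw [h1, one_smul]; exact hprod
  · rw [h1]
    have : (-1 : ℤˣ) • (∏ i, A (π i) i) = -(∏ i, A (π i) i) := by
      simp
    rw [this]
    exact hprod.neg

end IsLO

end Fermat.Agent.LibS23
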